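import Mathlib
import Fermat.Agent.LT.T7.H543.HGroup
import Fermat.Agent.LT.T7.H558.FactDownSpec

/-!
# Row LT, tower T7, node C2.7.7 `FactDownC305` (cut of helper558): leaves FD.4 `SuppOutC558` and
# FD.7 `PtFactC558`, VERBATIM (helper16, spare)

OFF-MAIN.  Unconditional, every number field.

    suppOutC558_16 : H558.SuppOutC558 K      (`LT/T7/H558/FactDownSpec.lean`, sha256 8043f526)
    ptFactC558_16  : H558.PtFactC558 K

`Out_S` is a group (`outT_mul16`, `outT_inv16`), the powers of the ray generator are trivial at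
the finite places (`outT_zpow16`) and central at the infinite places (`infGL_central16`),
`finGL305 v (ratG γ) = locG305 v γ`, `(id).onG y = y`.
-/

set_option autoImplicit false
set_option linter.unusedSectionVars false

open IsDedekindDomain NumberField

noncomputable section

namespace Fermat.Agent.LT.T7.H16

open Fermat.Agent.LT Fermat.Agent.LT.H556 Fermat.Agent.LT.H556.A0 Fermat.Agent.LT.T7
open Fermat.Agent.LT.T7.H305 Fermat.Agent.LT.T7.H543

variable {K : Type} [Field K] [NumberField K]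

theorem coe_finGL16 (v : HeightOneSpectrum (𝓞 K)) (g : G K) :
    ((finGL305 v g : GL (Fin 2) (v.adicCompletion K)) :
      Matrix (Fin 2) (Fin 2) (v.adicCompletion K)) = finComp v g := rfl

theorem coe_infGL16 (w : InfinitePlace K) (g : G K) :
    ((infGL305 w g : GL (Fin 2) ℂ) : Matrix (Fin 2) (Fin 2) ℂ) = infComp w g := rfl

theorem id_onG16 (y : G K) : (T5.AdelicAut.id K).onG y = y := by
  apply Units.ext
  ext i j
  rfl

theorem finGL_ratG16 (v : HeightOneSpectrum (𝓞 K)) (γ : GL (Fin 2) K) :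
    finGL305 v (T5.ratG γ) = locG305 v γ := by
  apply Units.ext
  ext i j
  rfl

theorem finGL_eq_one16 {v : HeightOneSpectrum (𝓞 K)} {g : G K} (hg : TrivAtFin v g) :
    finGL305 v g = 1 := by
  apply Units.ext
  exact hg

theorem finGL_zpow16 {r : G K} (hr : T5.IsRayGen r) (v : HeightOneSpectrum (𝓞 K)) (j : ℤ) :
    finGL305 v (r ^ j) = 1 := by
  rw [map_zpow, finGL_eq_one16 (hr.1 v), one_zpow]

/-- The components of the powers of the ray generator at the infinite places are central. -/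
theorem infGL_central16 {r : G K} (hr : T5.IsRayGen r) (w : InfinitePlace K) (j : ℤ)
    (g : GL (Fin 2) ℂ) : infGL305 w (r ^ j) * g = g * infGL305 w (r ^ j) := by
  obtain ⟨-, t, -, -, ht⟩ := hr
  have hc : ∀ g : GL (Fin 2) ℂ, Commute (infGL305 w r) g := by
    intro g
    apply Units.ext
    rw [Units.val_mul, Units.val_mul, coe_infGL16, ht w]
    ext a b
    rw [Matrix.diagonal_mul, Matrix.mul_diagonal, mul_comm]
  rw [map_zpow]
  exact ((hc g).zpow_left j).eq

/-! ## `Out_S` is a group -/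

theorem outT_mul16 {S : Finset (HeightOneSpectrum (𝓞 K))} {g h : G K} (hg : OutT305 S g)
    (hh : OutT305 S h) : OutT305 S (g * h) := by
  intro v hv
  refine ⟨isIntegralAt_mul543 (hg v hv).1 (hh v hv).1, ?_⟩
  rw [mul_inv_rev]
  exact isIntegralAt_mul543 (hh v hv).2 (hg v hv).2

theorem outT_inv16 {S : Finset (HeightOneSpectrum (𝓞 K))} {g : G K} (hg : OutT305 S g) :
    OutT305 S g⁻¹ := by
  intro v hv
  refine ⟨(hg v hv).2, ?_⟩
  rw [inv_inv]
  exact (hg v hv).1

theorem outT_of_triv16 {S : Finset (HeightOneSpectrum (𝓞 K))} {g : G K}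
    (hg : ∀ v : HeightOneSpectrum (𝓞 K), TrivAtFin v g) : OutT305 S g :=
  fun v _ => ⟨isIntegralAt_of_triv543 (hg v), isIntegralAt_of_triv543 (trivAtFin_inv543 (hg v))⟩

theorem outT_zpow16 {r : G K} (hr : T5.IsRayGen r) (S : Finset (HeightOneSpectrum (𝓞 K)))
    (j : ℤ) : OutT305 S (r ^ j) := by
  refine outT_of_triv16 fun v => ?_
  have h1 : finGL305 v (r ^ j) = 1 := finGL_zpow16 hr v j
  have h2 := congrArg (fun u : GL (Fin 2) (v.adicCompletion K) =>
    (u : Matrix (Fin 2) (Fin 2) (v.adicCompletion K))) h1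
  exact h2

theorem le_one_of_sub16 {k : Type} [Field k] [Valued k T6.Γ₀] {x : k} (δ : k)
    (hδ : Valued.v δ ≤ 1) (h : Valued.v (x - δ) ≤ 1) : Valued.v x ≤ 1 := by
  have e : x = (x - δ) + δ := by ring
  rw [e]
  exact (Valuation.map_add _ _ _).trans (max_le h hδ)

theorem one_entry_le16 {k : Type} [Field k] [Valued k T6.Γ₀] (i j : Fin 2) :
    Valued.v ((1 : Matrix (Fin 2) (Fin 2) k) i j) ≤ 1 := by
  by_cases h : i = j
  · rw [h, Matrix.one_apply_eq, map_one]
  · rw [Matrix.one_apply_ne h, map_zero]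
    exact zero_le

theorem outT_ratG16 {S : Finset (HeightOneSpectrum (𝓞 K))} {γ : GL (Fin 2) K}
    (hγ : IntOut305 S γ) : OutT305 S (T5.ratG γ) := by
  intro v hv
  have h := hγ v hv
  refine ⟨fun i j => ?_, fun i j => ?_⟩
  · rw [HeightOneSpectrum.mem_adicCompletionIntegers, ← coe_finGL16, finGL_ratG16]
    have h1 := (h i j).1
    rw [WithZero.exp_neg, Nat.cast_zero, WithZero.exp_zero, inv_one] at h1
    exact le_one_of_sub16 _ (one_entry_le16 i j) h1
  · rw [HeightOneSpectrum.mem_adicCompletionIntegers, ← coe_finGL16, map_inv, finGL_ratG16]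
    have h1 := (h i j).2
    rw [WithZero.exp_neg, Nat.cast_zero, WithZero.exp_zero, inv_one] at h1
    exact le_one_of_sub16 _ (one_entry_le16 i j) h1

variable (K)

/-- **LEAF FD.7 = PT-FACT of helper558, VERBATIM.** -/
theorem ptFactC558_16 : H558.PtFactC558 K := by
  intro r hr S f₀ F γ hγ y j hy
  have hout : OutT305 S (y⁻¹ * T5.ratG γ * (T5.AdelicAut.id K).onG y * r ^ j) := by
    rw [id_onG16]
    exact outT_mul16 (outT_mul16 (outT_mul16 (outT_inv16 hy) (outT_ratG16 hγ)) hy)
      (outT_zpow16 hr S j)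
  delta pure305
  rw [if_pos hout]
  congr 1
  · refine Finset.prod_congr rfl fun v _ => ?_
    congr 1
    rw [id_onG16, map_mul, map_mul, map_mul, map_inv, finGL_ratG16, finGL_zpow16 hr,
      mul_one]
  · refine Finset.prod_congr rfl fun w _ => ?_
    congr 1
    rw [id_onG16, map_mul, map_mul, map_mul, map_inv, map_mul (infGL305 w) (T5.ratG γ),
      mul_assoc ((infGL305 w y)⁻¹ * infGL305 w (T5.ratG γ)), ← infGL_central16 hr w j,
      ← mul_assoc, mul_assoc ((infGL305 w y)⁻¹)]

/-- **LEAF FD.4 = SUPP-OUT of helper558, VERBATIM.** -/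
theorem suppOutC558_16 : H558.SuppOutC558 K := by
  intro r hr S f₀ F γ x hx
  have hx' : (∑' m : ℤ, pure305 S f₀ F (x⁻¹ * T5.ratG γ * (T5.AdelicAut.id K).onG x * r ^ m))
      ≠ 0 := hx
  have hex : ∃ m : ℤ,
      pure305 S f₀ F (x⁻¹ * T5.ratG γ * (T5.AdelicAut.id K).onG x * r ^ m) ≠ 0 := by
    by_contra hcon
    push Not at hcon
    apply hx'
    rw [tsum_congr hcon, tsum_zero]
  obtain ⟨m, hm⟩ := hex
  rw [id_onG16] at hm
  have hout : OutT305 S (x⁻¹ * T5.ratG γ * x * r ^ m) := by
    by_contra hcon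
    apply hm
    delta pure305
    rw [if_neg hcon]
  have h1 := outT_mul16 hout (outT_inv16 (outT_zpow16 hr S m))
  rwa [mul_inv_cancel_right] at h1

end Fermat.Agent.LT.T7.H16

end
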