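import Mathlib
import Fermat.Agent.LT.T2.H131.WeakApprox
import Fermat.Agent.LT.T7.H16.FactDownLeaves
import Fermat.Agent.LT.T7.H340.UpFactSpec

/-!
# Row LT, tower T7, node C2.7.13.1 `UpFactC340` (second cut of helper340): leaves UF.A1
# `SuppOutUpC340` and UF.A4 `IsoContC340`, VERBATIM (helper16, spare)

OFF-MAIN.  Unconditional.

    suppOutUpC340_16 : H340.SuppOutUpC340 K   (`LT/T7/H340/UpFactSpec.lean`, sha256 04981afb)
    isoContC340_16   : H340.IsoContC340
-/

set_option autoImplicit false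
set_option linter.unusedSectionVars false

open IsDedekindDomain NumberField

noncomputable section

namespace Fermat.Agent.LT.T7.H16

open Fermat.Agent.LT Fermat.Agent.LT.H556 Fermat.Agent.LT.H556.A0 Fermat.Agent.LT.T7
open Fermat.Agent.LT.T7.H305 Fermat.Agent.LT.T7.H543

section Local

variable {k k' : Type} [Field k] [Field k'] [Valued k T6.Γ₀] [Valued k' T6.Γ₀]

theorem pow_le_self16 {a : T6.Γ₀} (ha : a ≤ 1) {e : ℕ} (he : 0 < e) : a ^ e ≤ a := by
  obtain ⟨n, rfl⟩ : ∃ n, e = n + 1 := ⟨e - 1, by omega⟩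
  rw [pow_succ]
  calc a ^ n * a ≤ 1 * a := mul_le_mul_left (pow_le_one' ha n) a
    _ = a := one_mul a

/-- A nonzero element of valuation `< 1` has powers of arbitrarily small valuation. -/
theorem exists_pow_le16 {t : k} (ht0 : t ≠ 0) (ht : Valued.v t < 1) {c : T6.Γ₀} (hc : c ≠ 0) :
    ∃ N : ℕ, Valued.v (t ^ N) ≤ c := by
  have h1 : Valued.v t ≤ WithZero.exp (-1 : ℤ) := by
    have h3 := WithZero.lt_mul_exp_iff_le (x := Valued.v t)
      (y := WithZero.exp (-1 : ℤ)) WithZero.exp_ne_zero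
    rw [← WithZero.exp_add] at h3
    have h4 : WithZero.exp ((-1 : ℤ) + 1) = (1 : T6.Γ₀) := by simp
    rw [h4] at h3
    exact h3.1 ht
  obtain ⟨b, rfl⟩ : ∃ b : ℤ, c = WithZero.exp b := by
    refine ⟨WithZero.log c, ?_⟩
    exact (WithZero.exp_log hc).symm
  refine ⟨b.natAbs, ?_⟩
  rw [map_pow]
  calc Valued.v t ^ b.natAbs ≤ WithZero.exp (-1 : ℤ) ^ b.natAbs := pow_le_pow_left' h1 _
    _ = WithZero.exp (-(b.natAbs : ℤ)) := by
        rw [← WithZero.exp_nsmul]
        congr 1
        rw [nsmul_eq_mul]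
        ring
    _ ≤ WithZero.exp b := by
        rw [WithZero.exp_le_exp]
        omega

/-- A ring homomorphism of valued fields with `v (i x) = v x ^ e`, `0 < e`, is continuous. -/
theorem continuous_of_val16 (e : ℕ) (i : k →+* k') (he : 0 < e)
    (hi : ∀ x : k, Valued.v (i x) = Valued.v x ^ e) : Continuous i := by
  rw [continuous_iff_continuousAt]
  intro x
  intro s hs
  obtain ⟨c', hc', hsub⟩ := T2.H131.exists_ball_subset_h131 (i x) hs
  have hvc' : Valued.v c' ≠ 0 := (Valuation.ne_zero_iff _).2 hc'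
  rw [Filter.mem_map]
  by_cases hz : ∃ z : k, z ≠ 0 ∧ Valued.v z ≤ 1 ∧ Valued.v z ≤ Valued.v c'
  · obtain ⟨z, hz0, hz1, hzc⟩ := hz
    refine Filter.mem_of_superset (T2.H131.ball_mem_nhds_h131 x z hz0) fun y hy => ?_
    have hy' : Valued.v (y - x) < Valued.v z := hy
    apply hsub
    show Valued.v (i y - i x) < Valued.v c'
    rw [← map_sub, hi]
    exact ((pow_le_self16 (hy'.le.trans hz1) he).trans_lt hy').trans_le hzc
  · push Not at hz
    refine Filter.mem_of_superset (T2.H131.ball_mem_nhds_h131 x 1 one_ne_zero) fun y hy => ?_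
    have hy' : Valued.v (y - x) < Valued.v (1 : k) := hy
    rw [map_one] at hy'
    have hyx : y = x := by
      by_contra hne
      have h0 : y - x ≠ 0 := sub_ne_zero.2 hne
      obtain ⟨N, hN⟩ := exists_pow_le16 h0 hy' hvc'
      have h2 : Valued.v ((y - x) ^ N) ≤ 1 := by
        rw [map_pow]
        exact pow_le_one' hy'.le N
      exact absurd hN (not_le.2 (hz _ (pow_ne_zero N h0) h2))
    show i y ∈ s
    rw [hyx]
    exact mem_of_mem_nhds hs

end Local

/-- **ASSET LEAF UF.A4 = ISO-CONT of helper340, VERBATIM.** -/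
theorem isoContC340_16 : H340.IsoContC340 := by
  intro k k' _ _ _ _ e i he hi
  have hc : Continuous i := continuous_of_val16 e i he hi
  refine ⟨hc, ?_⟩
  have hm : Continuous (RingHom.mapMatrix (m := Fin 2) i) := by
    show Continuous fun A : Matrix (Fin 2) (Fin 2) k => A.map i
    exact Continuous.matrix_map continuous_id hc
  exact Continuous.units_map (RingHom.mapMatrix (m := Fin 2) i).toMonoidHom hm

variable (K : Type) [Field K] [NumberField K]

/-- **LEAF UF.A1 = SUPP-OUT-UP of helper340, VERBATIM.** -/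
theorem suppOutUpC340_16 : H340.SuppOutUpC340 K := by
  intro r hr s S f₀ F δ x hx
  have hx' : (∑' m : ℤ, pure305 S f₀ F (x⁻¹ * T5.ratG δ * s.onG x * r ^ m)) ≠ 0 := hx
  have hex : ∃ m : ℤ, pure305 S f₀ F (x⁻¹ * T5.ratG δ * s.onG x * r ^ m) ≠ 0 := by
    by_contra hcon
    push Not at hcon
    apply hx'
    rw [tsum_congr hcon, tsum_zero]
  obtain ⟨m, hm⟩ := hex
  have hout : OutT305 S (x⁻¹ * T5.ratG δ * s.onG x * r ^ m) := by
    by_contra hcon
    apply hm
    delta pure305
    rw [if_neg hcon]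
  have h1 := outT_mul16 hout (outT_inv16 (outT_zpow16 hr S m))
  rwa [mul_inv_cancel_right] at h1

end Fermat.Agent.LT.T7.H16

end
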