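import Mathlib
import Fermat.Agent.LT.T2.H131.WeakApprox
import Fermat.Agent.LT.T7.H558.FactDownSpec

/-!
# Row LT, tower T7, node C2.7.7 `FactDownC305` (cut of helper558): leaf FD.10 `BiInvContC558`,
# VERBATIM (helper16, spare)

OFF-MAIN.  Unconditional.  `U(n)` is open in `GL₂(k)` for every valued field `k` with values in
`ℤᵐ⁰` (`isOpen_inU16`), a right `U(n)`-invariant function is locally constant
(`continuous_of_rightInv16`).
-/

set_option autoImplicit false
set_option linter.unusedSectionVars false

open IsDedekindDomain NumberField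

noncomputable section

namespace Fermat.Agent.LT.T7.H16

open Fermat.Agent.LT Fermat.Agent.LT.H556 Fermat.Agent.LT.H556.A0 Fermat.Agent.LT.T7
open Fermat.Agent.LT.T7.H305

section Local

variable {k : Type} [Field k] [Valued k T6.Γ₀]

/-- The closed balls of radius `exp (-n)` are open. -/
theorem isOpen_cball16 (n : ℕ) (c : k) :
    IsOpen {x : k | Valued.v (x - c) ≤ WithZero.exp (-(n : ℤ))} := by
  rw [isOpen_iff_mem_nhds]
  intro x hx
  have hx' : Valued.v (x - c) ≤ WithZero.exp (-(n : ℤ)) := hx
  by_cases hz : ∃ z : k, z ≠ 0 ∧ Valued.v z ≤ WithZero.exp (-(n : ℤ))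
  · obtain ⟨z, hz0, hzv⟩ := hz
    refine Filter.mem_of_superset (T2.H131.ball_mem_nhds_h131 x z hz0) fun y hy => ?_
    have hy' : Valued.v (y - x) < Valued.v z := hy
    have e : y - c = (y - x) + (x - c) := by ring
    show Valued.v (y - c) ≤ WithZero.exp (-(n : ℤ))
    rw [e]
    exact (Valuation.map_add _ _ _).trans (max_le (hy'.le.trans hzv) hx')
  · push Not at hz
    refine Filter.mem_of_superset (T2.H131.ball_mem_nhds_h131 x 1 one_ne_zero) fun y hy => ?_
    have hy' : Valued.v (y - x) < Valued.v (1 : k) := hy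
    rw [map_one] at hy'
    have hyx : y = x := by
      by_contra hne
      have h0 : y - x ≠ 0 := sub_ne_zero.2 hne
      have h1 : Valued.v (y - x) ≤ WithZero.exp (-1 : ℤ) := by
        have h3 := WithZero.lt_mul_exp_iff_le (x := Valued.v (y - x))
          (y := WithZero.exp (-1 : ℤ)) WithZero.exp_ne_zero
        rw [← WithZero.exp_add] at h3
        have h4 : WithZero.exp ((-1 : ℤ) + 1) = (1 : T6.Γ₀) := by simp
        rw [h4] at h3
        exact h3.1 hy'
      by_cases hn : n = 0
      · subst hn
        have := hz (y - x) h0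
        rw [Nat.cast_zero, neg_zero, WithZero.exp_zero] at this
        exact absurd hy' (not_lt.2 this.le)
      · have h2 : Valued.v ((y - x) ^ n) ≤ WithZero.exp (-(n : ℤ)) := by
          rw [map_pow]
          calc Valued.v (y - x) ^ n ≤ WithZero.exp (-1 : ℤ) ^ n := pow_le_pow_left' h1 n
            _ = WithZero.exp (-(n : ℤ)) := by
                rw [← WithZero.exp_nsmul]
                congr 1
                rw [nsmul_eq_mul]
                ring
        exact absurd h2 (not_le.2 (hz _ (pow_ne_zero n h0)))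
    rw [hyx]
    exact hx

/-- `U(n)` is open in `GL₂(k)`. -/
theorem isOpen_inU16 (n : ℕ) : IsOpen {u : GL (Fin 2) k | T6.InU n u} := by
  have hball : ∀ c : k, IsOpen {x : k | Valued.v (x - c) ≤ WithZero.exp (-(n : ℤ))} :=
    isOpen_cball16 n
  have e : {u : GL (Fin 2) k | T6.InU n u}
      = ⋂ i : Fin 2, ⋂ j : Fin 2,
        ((fun u : GL (Fin 2) k => (u : Matrix (Fin 2) (Fin 2) k) i j) ⁻¹'
            {x : k | Valued.v (x - (1 : Matrix (Fin 2) (Fin 2) k) i j)
              ≤ WithZero.exp (-(n : ℤ))}) ∩
          ((fun u : GL (Fin 2) k => ((u⁻¹ : GL (Fin 2) k) : Matrix (Fin 2) (Fin 2) k) i j) ⁻¹'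
            {x : k | Valued.v (x - (1 : Matrix (Fin 2) (Fin 2) k) i j)
              ≤ WithZero.exp (-(n : ℤ))}) := by
    ext u
    simp only [Set.mem_iInter, Set.mem_inter_iff, Set.mem_preimage]
    exact Iff.rfl
  rw [e]
  refine isOpen_iInter_of_finite fun i => isOpen_iInter_of_finite fun j => IsOpen.inter ?_ ?_
  · exact (hball _).preimage ((Units.continuous_val).matrix_elem i j)
  · exact (hball _).preimage ((Units.continuous_coe_inv).matrix_elem i j)

theorem inU_one16 (n : ℕ) : T6.InU n (1 : GL (Fin 2) k) := by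
  intro i j
  rw [inv_one, Units.val_one, sub_self, map_zero]
  exact ⟨zero_le, zero_le⟩

/-- A function which is right invariant under `U(n)` is continuous. -/
theorem continuous_of_rightInv16 (n : ℕ) (f : GL (Fin 2) k → ℂ)
    (hf : ∀ g u : GL (Fin 2) k, T6.InU n u → f (g * u) = f g) : Continuous f := by
  rw [continuous_iff_continuousAt]
  intro g
  have hopen : IsOpen ((fun h : GL (Fin 2) k => g⁻¹ * h) ⁻¹' {u | T6.InU n u}) :=
    (isOpen_inU16 n).preimage (continuous_const.mul continuous_id)
  have hmem : g ∈ (fun h : GL (Fin 2) k => g⁻¹ * h) ⁻¹' {u | T6.InU n u} := by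
    show T6.InU n (g⁻¹ * g)
    rw [inv_mul_cancel]
    exact inU_one16 n
  have hev : f =ᶠ[nhds g] fun _ => f g := by
    filter_upwards [hopen.mem_nhds hmem] with h hh
    have e : h = g * (g⁻¹ * h) := by group
    rw [e]
    exact hf g _ hh
  exact (continuousAt_const.congr hev.symm)

end Local

variable (K : Type) [Field K] [NumberField K]

/-- **LEAF FD.10 = BI-INV-CONT of helper558, VERBATIM.** -/
theorem biInvContC558_16 : H558.BiInvContC558 K := by
  intro v n f hf
  refine continuous_of_rightInv16 n f fun g u hu => ?_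
  have h := hf 1 u g (inU_one16 n) hu
  rwa [one_mul] at h

end Fermat.Agent.LT.T7.H16

end
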