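import Mathlib

/-!
# Row LT, tower T7, asset T7.L2.R (helper16): the Iwahori subgroup of `GL₂` of a discretely
valued field, matrix form

OFF-MAIN.  Mathlib only.  `F` a field with a valuation `v` with values in `ℤᵐ⁰`.

* `IsGLO16 v x` : `x ∈ GL₂(𝒪)` (integral entries, determinant a unit);
* `IsIw16 v x` : `x` lies in the Iwahori subgroup `I` (lower left entry of valuation `< 1`);
* `IsJ16 v x` : `x ∈ GL₂(𝒪) \ I` (lower left entry a unit).

Closure under products and inverses, conjugation by `ω = antidiag(1, c)` (`v c = exp (-1)`)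
preserves `I`, `I diag(c', 1) I ω⁻¹ ⊆ GL₂(𝒪) \ I`, and the Bruhat decomposition
`GL₂(𝒪) \ I = I s I`, `s = antidiag(1, 1)`.
-/

set_option autoImplicit false

namespace Fermat.Agent.LT.T7.H16

open Matrix WithZero

variable {F : Type*} [Field F] (v : Valuation F ℤᵐ⁰)

/-- `x ∈ GL₂(𝒪)`: integral entries and a determinant of valuation `1`. -/
def IsGLO16 (x : Matrix (Fin 2) (Fin 2) F) : Prop :=
  (∀ i j, v (x i j) ≤ 1) ∧ v x.det = 1

/-- `x` lies in the Iwahori subgroup. -/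
def IsIw16 (x : Matrix (Fin 2) (Fin 2) F) : Prop :=
  IsGLO16 v x ∧ v (x 1 0) < 1

/-- `x ∈ GL₂(𝒪)` does not lie in the Iwahori subgroup. -/
def IsJ16 (x : Matrix (Fin 2) (Fin 2) F) : Prop :=
  IsGLO16 v x ∧ v (x 1 0) = 1

variable {v}

theorem lt_one_iff_le16 {a : ℤᵐ⁰} : a < 1 ↔ a ≤ exp (-1 : ℤ) := by
  have h := WithZero.lt_mul_exp_iff_le (x := a) (y := exp (-1 : ℤ)) exp_ne_zero
  rw [← exp_add] at h
  simpa using h

theorem exp_neg_one_lt_one16 : (exp (-1 : ℤ) : ℤᵐ⁰) < 1 := lt_one_iff_le16.2 le_rfl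

theorem ne_zero_of_v16 {c : F} (hc : v c = exp (-1 : ℤ)) : c ≠ 0 := by
  intro h
  rw [h, map_zero] at hc
  exact exp_ne_zero hc.symm

theorem v_add_le16 {a b : F} (ha : v a ≤ 1) (hb : v b ≤ 1) : v (a + b) ≤ 1 :=
  (v.map_add a b).trans (max_le ha hb)

theorem v_add_lt16 {a b : F} (ha : v a < 1) (hb : v b < 1) : v (a + b) < 1 :=
  lt_of_le_of_lt (v.map_add a b) (max_lt ha hb)

theorem v_mul_le16 {a b : F} (ha : v a ≤ 1) (hb : v b ≤ 1) : v (a * b) ≤ 1 := by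
  rw [map_mul]
  calc v a * v b ≤ 1 * 1 := mul_le_mul' ha hb
    _ = 1 := one_mul 1

theorem v_mul_lt_left16 {a b : F} (ha : v a < 1) (hb : v b ≤ 1) : v (a * b) < 1 := by
  rw [map_mul]
  calc v a * v b ≤ v a * 1 := mul_le_mul' le_rfl hb
    _ = v a := mul_one _
    _ < 1 := ha

theorem v_mul_lt_right16 {a b : F} (ha : v a ≤ 1) (hb : v b < 1) : v (a * b) < 1 := by
  rw [mul_comm]
  exact v_mul_lt_left16 hb ha

theorem v_neg_le16 {a : F} (ha : v a ≤ 1) : v (-a) ≤ 1 := by rwa [Valuation.map_neg]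

theorem v_sub_le16 {a b : F} (ha : v a ≤ 1) (hb : v b ≤ 1) : v (a - b) ≤ 1 := by
  rw [sub_eq_add_neg]
  exact v_add_le16 ha (v_neg_le16 hb)

/-! ## `GL₂(𝒪)` -/

theorem isGLO16_one : IsGLO16 v (1 : Matrix (Fin 2) (Fin 2) F) := by
  refine ⟨fun i j => ?_, by rw [det_one, map_one]⟩
  by_cases h : i = j
  · subst h
    rw [one_apply_eq, map_one]
  · rw [one_apply_ne h, map_zero]
    exact zero_le_one

theorem isGLO16_mul {x y : Matrix (Fin 2) (Fin 2) F} (hx : IsGLO16 v x) (hy : IsGLO16 v y) :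
    IsGLO16 v (x * y) := by
  refine ⟨fun i j => ?_, by rw [det_mul, map_mul, hx.2, hy.2, one_mul]⟩
  rw [mul_apply, Fin.sum_univ_two]
  exact v_add_le16 (v_mul_le16 (hx.1 i 0) (hy.1 0 j)) (v_mul_le16 (hx.1 i 1) (hy.1 1 j))

theorem det_ne_zero16 {x : Matrix (Fin 2) (Fin 2) F} (hx : IsGLO16 v x) : x.det ≠ 0 := by
  intro h
  have := hx.2
  rw [h, map_zero] at this
  exact zero_ne_one this

theorem inv_eq16 {x : Matrix (Fin 2) (Fin 2) F} (hx : x.det ≠ 0) :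
    x⁻¹ = !![x 1 1 / x.det, -(x 0 1) / x.det; -(x 1 0) / x.det, x 0 0 / x.det] := by
  rw [Matrix.inv_def, Ring.inverse_eq_inv', Matrix.adjugate_fin_two]
  ext i j
  fin_cases i <;> fin_cases j <;> simp [div_eq_inv_mul]

theorem v_div_det16 {x : Matrix (Fin 2) (Fin 2) F} (hx : IsGLO16 v x) (a : F) :
    v (a / x.det) = v a := by
  rw [map_div₀, hx.2, div_one]

theorem isGLO16_inv {x : Matrix (Fin 2) (Fin 2) F} (hx : IsGLO16 v x) : IsGLO16 v x⁻¹ := by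
  have hd := det_ne_zero16 hx
  refine ⟨fun i j => ?_, ?_⟩
  · rw [inv_eq16 hd]
    fin_cases i <;> fin_cases j
    · show v (x 1 1 / x.det) ≤ 1
      rw [v_div_det16 hx]; exact hx.1 1 1
    · show v (-(x 0 1) / x.det) ≤ 1
      rw [v_div_det16 hx, Valuation.map_neg]; exact hx.1 0 1
    · show v (-(x 1 0) / x.det) ≤ 1
      rw [v_div_det16 hx, Valuation.map_neg]; exact hx.1 1 0
    · show v (x 0 0 / x.det) ≤ 1
      rw [v_div_det16 hx]; exact hx.1 0 0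
  · rw [Matrix.det_nonsing_inv, Ring.inverse_eq_inv', map_inv₀, hx.2, inv_one]

/-! ## The Iwahori subgroup -/

theorem isIw16_one : IsIw16 v (1 : Matrix (Fin 2) (Fin 2) F) := by
  refine ⟨isGLO16_one, ?_⟩
  rw [one_apply_ne (by decide : (1 : Fin 2) ≠ 0), map_zero]
  exact zero_lt_one

theorem isIw16_mul {x y : Matrix (Fin 2) (Fin 2) F} (hx : IsIw16 v x) (hy : IsIw16 v y) :
    IsIw16 v (x * y) := by
  refine ⟨isGLO16_mul hx.1 hy.1, ?_⟩
  rw [mul_apply, Fin.sum_univ_two]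
  exact v_add_lt16 (v_mul_lt_left16 hx.2 (hy.1.1 0 0)) (v_mul_lt_right16 (hx.1.1 1 1) hy.2)

theorem isIw16_inv {x : Matrix (Fin 2) (Fin 2) F} (hx : IsIw16 v x) : IsIw16 v x⁻¹ := by
  refine ⟨isGLO16_inv hx.1, ?_⟩
  rw [inv_eq16 (det_ne_zero16 hx.1)]
  show v (-(x 1 0) / x.det) < 1
  rw [v_div_det16 hx.1, Valuation.map_neg]
  exact hx.2

/-- The diagonal entries of an Iwahori matrix are units. -/
theorem IsIw16.diag {x : Matrix (Fin 2) (Fin 2) F} (hx : IsIw16 v x) :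
    v (x 0 0) = 1 ∧ v (x 1 1) = 1 := by
  have hdet := hx.1.2
  rw [det_fin_two] at hdet
  have hsmall : v (x 0 1 * x 1 0) < 1 := v_mul_lt_right16 (hx.1.1 0 1) hx.2
  have e : x 0 0 * x 1 1 = (x 0 0 * x 1 1 - x 0 1 * x 1 0) + x 0 1 * x 1 0 := by ring
  have hprod : v (x 0 0) * v (x 1 1) = 1 := by
    rw [← map_mul, e, Valuation.map_add_eq_of_lt_left v (by rw [hdet]; exact hsmall)]
    exact hdet
  have h0 : v (x 0 0) = 1 := by
    refine le_antisymm (hx.1.1 0 0) ?_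
    by_contra hlt
    rw [not_le] at hlt
    have : v (x 0 0) * v (x 1 1) < 1 := by
      calc v (x 0 0) * v (x 1 1) ≤ v (x 0 0) * 1 := mul_le_mul' le_rfl (hx.1.1 1 1)
        _ = v (x 0 0) := mul_one _
        _ < 1 := hlt
    rw [hprod] at this
    exact lt_irrefl _ this
  refine ⟨h0, ?_⟩
  rw [h0, one_mul] at hprod
  exact hprod

/-- In `GL₂(𝒪)`: not Iwahori iff the lower left entry is a unit. -/
theorem isJ16_of_not_isIw {x : Matrix (Fin 2) (Fin 2) F} (hx : IsGLO16 v x)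
    (h : ¬ IsIw16 v x) : IsJ16 v x := by
  refine ⟨hx, le_antisymm (hx.1 1 0) ?_⟩
  by_contra hlt
  rw [not_le] at hlt
  exact h ⟨hx, hlt⟩

theorem not_isIw16_of_isJ {x : Matrix (Fin 2) (Fin 2) F} (hx : IsJ16 v x) : ¬ IsIw16 v x :=
  fun h => absurd hx.2 (ne_of_lt h.2)

/-! ## Conjugation by `ω = antidiag(1, c)` -/

/-- `ω = [[0, 1], [c, 0]]`. -/
def omegaM16 (c : F) : Matrix (Fin 2) (Fin 2) F := !![0, 1; c, 0]

/-- `ω⁻¹ = [[0, c⁻¹], [1, 0]]`. -/
def omegaInvM16 (c : F) : Matrix (Fin 2) (Fin 2) F := !![0, c⁻¹; 1, 0]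

theorem omegaM16_mul_inv {c : F} (hc : c ≠ 0) : omegaM16 c * omegaInvM16 c = 1 := by
  unfold omegaM16 omegaInvM16
  ext i j
  fin_cases i <;> fin_cases j <;> simp [Matrix.mul_apply, Fin.sum_univ_two, hc]

theorem omegaInvM16_mul {c : F} (hc : c ≠ 0) : omegaInvM16 c * omegaM16 c = 1 := by
  unfold omegaM16 omegaInvM16
  ext i j
  fin_cases i <;> fin_cases j <;> simp [Matrix.mul_apply, Fin.sum_univ_two, hc]

theorem omegaM16_sq (c : F) : omegaM16 c * omegaM16 c = Matrix.diagonal (fun _ => c) := by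
  unfold omegaM16
  ext i j
  fin_cases i <;> fin_cases j <;> simp [Matrix.mul_apply, Fin.sum_univ_two]

theorem conj_omega16 {c : F} (hc : c ≠ 0) (x : Matrix (Fin 2) (Fin 2) F) :
    omegaInvM16 c * x * omegaM16 c = !![x 1 1, x 1 0 / c; c * x 0 1, x 0 0] := by
  unfold omegaM16 omegaInvM16
  conv_lhs => rw [Matrix.eta_fin_two x]
  rw [Matrix.mul_fin_two, Matrix.mul_fin_two]
  have h00 : (0 * x 0 0 + c⁻¹ * x 1 0) * 0 + (0 * x 0 1 + c⁻¹ * x 1 1) * c = x 1 1 := by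
    field_simp <;> ring
  have h01 : (0 * x 0 0 + c⁻¹ * x 1 0) * 1 + (0 * x 0 1 + c⁻¹ * x 1 1) * 0 = x 1 0 / c := by
    field_simp <;> ring
  have h10 : (1 * x 0 0 + 0 * x 1 0) * 0 + (1 * x 0 1 + 0 * x 1 1) * c = c * x 0 1 := by
    ring
  have h11 : (1 * x 0 0 + 0 * x 1 0) * 1 + (1 * x 0 1 + 0 * x 1 1) * 0 = x 0 0 := by
    ring
  rw [h00, h01, h10, h11]

theorem conj_omega16' {c : F} (hc : c ≠ 0) (x : Matrix (Fin 2) (Fin 2) F) :
    omegaM16 c * x * omegaInvM16 c = !![x 1 1, x 1 0 / c; c * x 0 1, x 0 0] := by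
  unfold omegaM16 omegaInvM16
  conv_lhs => rw [Matrix.eta_fin_two x]
  rw [Matrix.mul_fin_two, Matrix.mul_fin_two]
  have h00 : (0 * x 0 0 + 1 * x 1 0) * 0 + (0 * x 0 1 + 1 * x 1 1) * 1 = x 1 1 := by
    ring
  have h01 : (0 * x 0 0 + 1 * x 1 0) * c⁻¹ + (0 * x 0 1 + 1 * x 1 1) * 0 = x 1 0 / c := by
    field_simp <;> ring
  have h10 : (c * x 0 0 + 0 * x 1 0) * 0 + (c * x 0 1 + 0 * x 1 1) * 1 = c * x 0 1 := by
    ring
  have h11 : (c * x 0 0 + 0 * x 1 0) * c⁻¹ + (c * x 0 1 + 0 * x 1 1) * 0 = x 0 0 := by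
    field_simp <;> ring
  rw [h00, h01, h10, h11]

theorem isIw16_conjForm {c : F} (hc : v c = exp (-1 : ℤ)) {x : Matrix (Fin 2) (Fin 2) F}
    (hx : IsIw16 v x) : IsIw16 v !![x 1 1, x 1 0 / c; c * x 0 1, x 0 0] := by
  have hc0 : c ≠ 0 := by
    intro h
    rw [h, map_zero] at hc
    exact exp_ne_zero hc.symm
  have hclt : v c < 1 := by rw [hc]; exact exp_neg_one_lt_one16
  refine ⟨⟨fun i j => ?_, ?_⟩, ?_⟩
  · fin_cases i <;> fin_cases j
    · exact hx.1.1 1 1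
    · show v (x 1 0 / c) ≤ 1
      rw [map_div₀, hc]
      have h1 : v (x 1 0) ≤ exp (-1 : ℤ) := lt_one_iff_le16.1 hx.2
      rw [div_le_one₀ exp_pos]
      exact h1
    · show v (c * x 0 1) ≤ 1
      exact v_mul_le16 hclt.le (hx.1.1 0 1)
    · exact hx.1.1 0 0
  · rw [det_fin_two_of]
    have : x 1 1 * x 0 0 - x 1 0 / c * (c * x 0 1) = x.det := by
      rw [det_fin_two]
      field_simp <;> ring
    rw [this]
    exact hx.1.2
  · show v (c * x 0 1) < 1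
    exact v_mul_lt_left16 hclt (hx.1.1 0 1)

theorem isIw16_conj {c : F} (hc : v c = exp (-1 : ℤ)) {x : Matrix (Fin 2) (Fin 2) F}
    (hx : IsIw16 v x) : IsIw16 v (omegaInvM16 c * x * omegaM16 c) := by
  rw [conj_omega16 (ne_zero_of_v16 hc)]
  exact isIw16_conjForm hc hx

theorem isIw16_conj' {c : F} (hc : v c = exp (-1 : ℤ)) {x : Matrix (Fin 2) (Fin 2) F}
    (hx : IsIw16 v x) : IsIw16 v (omegaM16 c * x * omegaInvM16 c) := by
  rw [conj_omega16' (ne_zero_of_v16 hc)]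
  exact isIw16_conjForm hc hx

/-! ## The double coset `I diag(c', 1) I` -/

theorem diag_mul_omegaInv16 (c c' : F) :
    !![c', 0; 0, 1] * omegaInvM16 c = !![0, c' / c; 1, 0] := by
  unfold omegaInvM16
  ext i j
  fin_cases i <;> fin_cases j <;> simp [Matrix.mul_apply, Fin.sum_univ_two, div_eq_mul_inv]

theorem isJ16_weyl {u : F} (hu : v u = 1) : IsJ16 v !![0, u; 1, 0] := by
  refine ⟨⟨fun i j => ?_, ?_⟩, ?_⟩
  · fin_cases i <;> fin_cases j
    · show v (0 : F) ≤ 1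
      rw [map_zero]; exact zero_le_one
    · show v u ≤ 1
      exact hu.le
    · show v (1 : F) ≤ 1
      rw [map_one]
    · show v (0 : F) ≤ 1
      rw [map_zero]; exact zero_le_one
  · rw [det_fin_two_of]
    simp [hu]
  · show v (1 : F) = 1
    exact map_one v

/-- `I · J · I ⊆ J`. -/
theorem isJ16_mul_mul {k₁ s k₂ : Matrix (Fin 2) (Fin 2) F} (h₁ : IsIw16 v k₁)
    (hs : IsJ16 v s) (h₂ : IsIw16 v k₂) : IsJ16 v (k₁ * s * k₂) := by
  have hG : IsGLO16 v (k₁ * s * k₂) := isGLO16_mul (isGLO16_mul h₁.1 hs.1) h₂.1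
  refine isJ16_of_not_isIw hG fun hI => not_isIw16_of_isJ hs ?_
  have hd₁ := det_ne_zero16 h₁.1
  have hd₂ := det_ne_zero16 h₂.1
  have e : s = k₁⁻¹ * (k₁ * s * k₂) * k₂⁻¹ := by
    rw [Matrix.mul_assoc k₁ s k₂, ← Matrix.mul_assoc k₁⁻¹, Matrix.nonsing_inv_mul _ (isUnit_iff_ne_zero.2 hd₁),
      Matrix.one_mul, Matrix.mul_assoc, Matrix.mul_nonsing_inv _ (isUnit_iff_ne_zero.2 hd₂),
      Matrix.mul_one]
  rw [e]
  exact isIw16_mul (isIw16_mul (isIw16_inv h₁) hI) (isIw16_inv h₂)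

/-- `I diag(c', 1) I ω⁻¹ ⊆ GL₂(𝒪) \ I`. -/
theorem isJ16_coset {c c' : F} (hc : v c = exp (-1 : ℤ)) (hc' : v c' = exp (-1 : ℤ))
    {k₁ k₂ : Matrix (Fin 2) (Fin 2) F} (h₁ : IsIw16 v k₁) (h₂ : IsIw16 v k₂) :
    IsJ16 v (k₁ * !![c', 0; 0, 1] * k₂ * omegaInvM16 c) := by
  have hc0 : c ≠ 0 := by
    intro h
    rw [h, map_zero] at hc
    exact exp_ne_zero hc.symm
  have e : k₁ * !![c', 0; 0, 1] * k₂ * omegaInvM16 c
      = k₁ * !![0, c' / c; 1, 0] * (omegaM16 c * k₂ * omegaInvM16 c) := by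
    rw [← diag_mul_omegaInv16]
    simp only [Matrix.mul_assoc]
    rw [← Matrix.mul_assoc (omegaInvM16 c) (omegaM16 c), omegaInvM16_mul hc0, Matrix.one_mul]
  rw [e]
  refine isJ16_mul_mul h₁ (isJ16_weyl ?_) (isIw16_conj' hc h₂)
  rw [map_div₀, hc, hc']
  exact div_self exp_ne_zero

/-! ## Bruhat -/

/-- `GL₂(𝒪) \ I = I s I`. -/
theorem bruhat16 {x : Matrix (Fin 2) (Fin 2) F} (hx : IsJ16 v x) :
    ∃ n b : Matrix (Fin 2) (Fin 2) F, IsIw16 v n ∧ IsIw16 v b ∧ x = n * !![0, 1; 1, 0] * b := by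
  have hc0 : x 1 0 ≠ 0 := by
    intro h
    have := hx.2
    rw [h, map_zero] at this
    exact zero_ne_one this
  refine ⟨!![1, x 0 0 / x 1 0; 0, 1], !![x 1 0, x 1 1; 0, -(x.det / x 1 0)], ?_, ?_, ?_⟩
  · refine ⟨⟨fun i j => ?_, ?_⟩, ?_⟩
    · fin_cases i <;> fin_cases j
      · show v (1 : F) ≤ 1
        rw [map_one]
      · show v (x 0 0 / x 1 0) ≤ 1
        rw [map_div₀, hx.2, div_one]
        exact hx.1.1 0 0
      · show v (0 : F) ≤ 1
        rw [map_zero]; exact zero_le_one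
      · show v (1 : F) ≤ 1
        rw [map_one]
    · rw [det_fin_two_of]
      simp
    · show v (0 : F) < 1
      rw [map_zero]; exact zero_lt_one
  · refine ⟨⟨fun i j => ?_, ?_⟩, ?_⟩
    · fin_cases i <;> fin_cases j
      · exact hx.1.1 1 0
      · exact hx.1.1 1 1
      · show v (0 : F) ≤ 1
        rw [map_zero]; exact zero_le_one
      · show v (-(x.det / x 1 0)) ≤ 1
        rw [Valuation.map_neg, map_div₀, hx.2, hx.1.2, div_one]
    · rw [det_fin_two_of]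
      have : x 1 0 * -(x.det / x 1 0) - x 1 1 * 0 = -x.det := by
        field_simp <;> ring
      rw [this, Valuation.map_neg]
      exact hx.1.2
    · show v (0 : F) < 1
      rw [map_zero]; exact zero_lt_one
  · ext i j
    fin_cases i <;> fin_cases j
    · simp [Matrix.mul_apply, Fin.sum_univ_two]
      field_simp
    · simp [Matrix.mul_apply, Fin.sum_univ_two, det_fin_two]
      field_simp
      ring
    · simp [Matrix.mul_apply, Fin.sum_univ_two]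
    · simp [Matrix.mul_apply, Fin.sum_univ_two]

end Fermat.Agent.LT.T7.H16
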