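import Mathlib
import Fermat.Agent.LT.T5.Spec
import Fermat.Agent.LT.H129.Local
import Fermat.Agent.LT.T7.H16.IwLocal

/-!
# Row LT, tower T7, asset T7.L2.R (helper16): the Iwahori subgroup, adelic form

OFF-MAIN.  Bridge between `T5.InIwahori` / `T5.InIwahoriCoset` (T5/Spec v4) and the matrix
predicates of `IwLocal.lean`; the local elements `ω = antidiag(1, c)`, `s = antidiag(1, 1)` of
`GL₂(𝔸_K)` at a finite place (local embedding `locFin129` of helper129).
-/

set_option autoImplicit false

open IsDedekindDomain NumberField WithZero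

noncomputable section

namespace Fermat.Agent.LT.T7.H16

open Fermat.Agent.LT.H556.A0 Fermat.Agent.LT.T5 Fermat.Agent.LT.H129

variable {K : Type} [Field K] [NumberField K]

/-- The valuation of the completion at `w`. -/
abbrev vw16 (w : HeightOneSpectrum (𝓞 K)) : Valuation (w.adicCompletion K) ℤᵐ⁰ := Valued.v

theorem finComp_mul16 (w : HeightOneSpectrum (𝓞 K)) (g h : G K) :
    finComp w (g * h) = finComp w g * finComp w h := by
  rw [← coe_finCompHom129, ← coe_finCompHom129, ← coe_finCompHom129, map_mul]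
  rfl

theorem finComp_one16 (w : HeightOneSpectrum (𝓞 K)) : finComp w (1 : G K) = 1 := by
  rw [← coe_finCompHom129, map_one]
  rfl

theorem finComp_inv16' (w : HeightOneSpectrum (𝓞 K)) (g : G K) :
    finComp w g⁻¹ = (finComp w g)⁻¹ := by
  rw [← coe_finCompHom129, ← coe_finCompHom129, map_inv, Matrix.coe_units_inv]

theorem isIntegralAt_iff16 (w : HeightOneSpectrum (𝓞 K)) (g : G K) :
    IsIntegralAt w g ↔ ∀ i j, vw16 w (finComp w g i j) ≤ 1 := by
  unfold IsIntegralAt
  simp only [HeightOneSpectrum.mem_adicCompletionIntegers]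

theorem v_det_le16 {F : Type*} [Field F] {v : Valuation F ℤᵐ⁰} {x : Matrix (Fin 2) (Fin 2) F}
    (hx : ∀ i j, v (x i j) ≤ 1) : v x.det ≤ 1 := by
  rw [Matrix.det_fin_two]
  exact v_sub_le16 (v_mul_le16 (hx 0 0) (hx 1 1)) (v_mul_le16 (hx 0 1) (hx 1 0))

/-- `InIwahori` in matrix form. -/
theorem inIwahori_iff16 (w : HeightOneSpectrum (𝓞 K)) (g : G K) :
    InIwahori w g ↔ IsIw16 (vw16 w) (finComp w g) := by
  constructor
  · rintro ⟨h1, h2, h3⟩
    rw [isIntegralAt_iff16] at h1 h2
    refine ⟨⟨h1, ?_⟩, h3⟩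
    have hmul : (finComp w g).det * (finComp w g⁻¹).det = 1 := by
      rw [← Matrix.det_mul, ← finComp_mul16, mul_inv_cancel, finComp_one16, Matrix.det_one]
    have hv : vw16 w (finComp w g).det * vw16 w (finComp w g⁻¹).det = 1 := by
      rw [← map_mul, hmul, map_one]
    refine le_antisymm (v_det_le16 h1) ?_
    by_contra hlt
    rw [not_le] at hlt
    have : vw16 w (finComp w g).det * vw16 w (finComp w g⁻¹).det < 1 := by
      calc vw16 w (finComp w g).det * vw16 w (finComp w g⁻¹).det
          ≤ vw16 w (finComp w g).det * 1 := mul_le_mul' le_rfl (v_det_le16 h2)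
        _ = vw16 w (finComp w g).det := mul_one _
        _ < 1 := hlt
    rw [hv] at this
    exact lt_irrefl _ this
  · intro h
    refine ⟨(isIntegralAt_iff16 w g).2 h.1.1, (isIntegralAt_iff16 w g⁻¹).2 ?_, h.2⟩
    rw [finComp_inv16']
    exact (isGLO16_inv h.1).1

theorem inIwahori_mul16 (w : HeightOneSpectrum (𝓞 K)) {g h : G K} (hg : InIwahori w g)
    (hh : InIwahori w h) : InIwahori w (g * h) := by
  rw [inIwahori_iff16] at *
  rw [finComp_mul16]
  exact isIw16_mul hg hh

theorem inIwahori_inv16 (w : HeightOneSpectrum (𝓞 K)) {g : G K} (hg : InIwahori w g) :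
    InIwahori w g⁻¹ := by
  rw [inIwahori_iff16] at *
  rw [finComp_inv16']
  exact isIw16_inv hg

theorem inIwahori_of_trivAtFin16 (w : HeightOneSpectrum (𝓞 K)) {g : G K}
    (hg : TrivAtFin w g) : InIwahori w g := by
  rw [inIwahori_iff16]
  unfold TrivAtFin at hg
  rw [hg]
  exact isIw16_one

/-! ## Local elements -/

/-- The element of `GL₂(K_w)` with a given matrix of nonzero determinant. -/
def glOf16 {w : HeightOneSpectrum (𝓞 K)} (M : Matrix (Fin 2) (Fin 2) (w.adicCompletion K))
    (hM : M.det ≠ 0) : GL (Fin 2) (w.adicCompletion K) :=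
  Matrix.GeneralLinearGroup.mkOfDetNeZero M hM

/-- The element of `GL₂(𝔸_K)` supported at `w` with a given matrix of nonzero determinant. -/
def locOf16 (w : HeightOneSpectrum (𝓞 K)) (M : Matrix (Fin 2) (Fin 2) (w.adicCompletion K))
    (hM : M.det ≠ 0) : G K :=
  locFin129 w (glOf16 M hM)

theorem finComp_locOf16 (w : HeightOneSpectrum (𝓞 K))
    (M : Matrix (Fin 2) (Fin 2) (w.adicCompletion K)) (hM : M.det ≠ 0) :
    finComp w (locOf16 w M hM) = M := by
  unfold locOf16
  rw [finComp_locFin129]
  rfl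

theorem isLocalAtFin_locOf16 (w : HeightOneSpectrum (𝓞 K))
    (M : Matrix (Fin 2) (Fin 2) (w.adicCompletion K)) (hM : M.det ≠ 0) :
    IsLocalAtFin w (locOf16 w M hM) :=
  isLocalAtFin_locFin129 w _

/-- Two elements supported at `w` with the same matrix at `w` are equal. -/
theorem eq_of_local16 {w : HeightOneSpectrum (𝓞 K)} {g h : G K} (hg : IsLocalAtFin w g)
    (hh : IsLocalAtFin w h) (e : finComp w g = finComp w h) : g = h := by
  rw [eq_locFin129_of_isLocalAtFin hg, eq_locFin129_of_isLocalAtFin hh]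
  congr 1
  apply Units.ext
  rw [coe_finCompHom129, coe_finCompHom129]
  exact e

/-- An element which is supported at `w` and Iwahori at `w` is Iwahori along every orbit. -/
theorem inIwahori_all_of_local16 {w : HeightOneSpectrum (𝓞 K)} {k : G K}
    (hk : IsLocalAtFin w k) (hI : InIwahori w k) (v : HeightOneSpectrum (𝓞 K)) :
    InIwahori v k := by
  by_cases h : v = w
  · subst h
    exact hI
  · exact inIwahori_of_trivAtFin16 v (hk.2 v h)

end Fermat.Agent.LT.T7.H16

end
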