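import Mathlib
import Fermat.Agent.LT.T5.Spec
import Fermat.Agent.LT.T1.Spec
import Fermat.Agent.LT.T7.H277.TranslInv

/-!
# Row LT, tower T7, asset T7.L2.R (helper16): matrix coefficients of right translates

OFF-MAIN.  For a continuous bounded function `ψ` on `GL₂(𝔸_K)` which is left invariant under
`GL₂(K)` and right invariant under the ray generator, and a frame `(μ, F)`:

    P16 μ F ψ a b = ⟨R(a) ψ, R(b) ψ⟩ = ∫_F ψ(x a) conj ψ(x b) dμ(x).

* `P16_mul_left` : `P (h a) (h b) = P a b` (translation invariance of `∫_F`, helper277);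
* `P16_conj` : `conj (P a b) = P b a`;
* `P16_self` : `P a a = N` (a real number `≥ 0`), `norm_P16_le` : `‖P a b‖ ≤ N`;
* `innerD_sum_left16`, `innerD_sum_right16`, `innerD_const_mul_left16`,
  `innerD_const_mul_right16` : sesquilinearity of `T5.innerD` on continuous bounded functions.
-/

set_option autoImplicit false

open IsDedekindDomain NumberField MeasureTheory
open scoped ComplexConjugate

noncomputable section

namespace Fermat.Agent.LT.T7.H16

open Fermat.Agent.LT.H556.A0 Fermat.Agent.LT.T5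

attribute [local instance] Fermat.Agent.LT.T5.instMeasurableSpaceG

variable {K : Type} [Field K] [NumberField K]

/-- Continuous bounded functions on `GL₂(K) ⟨r⟩ \ GL₂(𝔸_K)`. -/
structure IsAutBdd16 (r : G K) (ψ : G K → ℂ) : Prop where
  cont : Continuous ψ
  bdd : ∃ C : ℝ, ∀ g : G K, ‖ψ g‖ ≤ C
  left_inv : ∀ (γ : GL (Fin 2) K) (g : G K), ψ (ratG γ * g) = ψ g
  ray : ∀ g : G K, ψ (g * r) = ψ g

theorem isAutBdd16_of_cusp {𝔫 : Ideal (𝓞 K)} {τ : G K → ℂ} {r : G K} {ψ : G K → ℂ}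
    (h : IsCuspFn 𝔫 τ r ψ) : IsAutBdd16 r ψ :=
  ⟨h.cont, h.bdd, h.aut.left_inv, h.aut.ray⟩

theorem IsAutBdd16.translate {r : G K} {ψ : G K → ℂ} (hψ : IsAutBdd16 r ψ) (hr : IsRayGen r)
    (a : G K) : IsAutBdd16 r (fun x => ψ (x * a)) where
  cont := hψ.cont.comp (continuous_mul_const a)
  bdd := by
    obtain ⟨C, hC⟩ := hψ.bdd
    exact ⟨C, fun g => hC _⟩
  left_inv := fun γ g => by rw [mul_assoc, hψ.left_inv]
  ray := fun g => by
    have hcomm : r * a = a * r := T5.H277.ray_comm277 hr a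
    rw [mul_assoc, hcomm, ← mul_assoc, hψ.ray]

theorem IsAutBdd16.const_mul {r : G K} {ψ : G K → ℂ} (hψ : IsAutBdd16 r ψ) (c : ℂ) :
    IsAutBdd16 r (fun x => c * ψ x) where
  cont := continuous_const.mul hψ.cont
  bdd := by
    obtain ⟨C, hC⟩ := hψ.bdd
    refine ⟨‖c‖ * C, fun g => ?_⟩
    rw [norm_mul]
    exact mul_le_mul_of_nonneg_left (hC g) (norm_nonneg _)
  left_inv := fun γ g => by rw [hψ.left_inv]
  ray := fun g => by rw [hψ.ray]

variable {μ : Measure (G K)} {F : Set (G K)} {r : G K}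

/-! ## Sesquilinearity of `innerD` -/

theorem integrableOn_mul_conj16 (hfin : μ F < ⊤) {e f : G K → ℂ} (hec : Continuous e)
    (hfc : Continuous f) (heb : ∃ C : ℝ, ∀ g : G K, ‖e g‖ ≤ C)
    (hfb : ∃ C : ℝ, ∀ g : G K, ‖f g‖ ≤ C) :
    IntegrableOn (fun x => e x * conj (f x)) F μ := by
  have : BorelSpace (G K) := T5.H277.borelSpaceG277
  obtain ⟨C₁, h₁⟩ := heb
  obtain ⟨C₂, h₂⟩ := hfb
  have hcont : Continuous fun x => e x * conj (f x) :=
    hec.mul (Complex.continuous_conj.comp hfc)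
  refine Measure.integrableOn_of_bounded (M := C₁ * C₂) hfin.ne hcont.aestronglyMeasurable
    (Filter.Eventually.of_forall fun g => ?_)
  rw [norm_mul, RCLike.norm_conj]
  exact mul_le_mul (h₁ g) (h₂ g) (norm_nonneg _) ((norm_nonneg _).trans (h₁ g))

theorem innerD_sum_left16 (hfin : μ F < ⊤) {ι : Type*} (H : Finset ι) (e : ι → G K → ℂ)
    {χ : G K → ℂ} (he : ∀ i ∈ H, Continuous (e i) ∧ ∃ C : ℝ, ∀ g : G K, ‖e i g‖ ≤ C)
    (hχc : Continuous χ) (hχb : ∃ C : ℝ, ∀ g : G K, ‖χ g‖ ≤ C) :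
    innerD μ F (fun x => ∑ i ∈ H, e i x) χ = ∑ i ∈ H, innerD μ F (e i) χ := by
  unfold innerD
  simp only [Finset.sum_mul]
  rw [integral_finsetSum]
  intro i hi
  exact integrableOn_mul_conj16 hfin (he i hi).1 hχc (he i hi).2 hχb

theorem innerD_sum_right16 (hfin : μ F < ⊤) {ι : Type*} (H : Finset ι) (e : ι → G K → ℂ)
    {χ : G K → ℂ} (he : ∀ i ∈ H, Continuous (e i) ∧ ∃ C : ℝ, ∀ g : G K, ‖e i g‖ ≤ C)
    (hχc : Continuous χ) (hχb : ∃ C : ℝ, ∀ g : G K, ‖χ g‖ ≤ C) :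
    innerD μ F χ (fun x => ∑ i ∈ H, e i x) = ∑ i ∈ H, innerD μ F χ (e i) := by
  unfold innerD
  simp only [map_sum, Finset.mul_sum]
  rw [integral_finsetSum]
  intro i hi
  exact integrableOn_mul_conj16 hfin hχc (he i hi).1 hχb (he i hi).2

theorem innerD_const_mul_left16 (c : ℂ) (e f : G K → ℂ) :
    innerD μ F (fun x => c * e x) f = c * innerD μ F e f := by
  unfold innerD
  simp only [mul_assoc]
  exact integral_const_mul c _

theorem innerD_const_mul_right16 (c : ℂ) (e f : G K → ℂ) :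
    innerD μ F e (fun x => c * f x) = conj c * innerD μ F e f := by
  unfold innerD
  have : (fun x => e x * conj (c * f x)) = fun x => conj c * (e x * conj (f x)) := by
    funext x
    rw [map_mul]
    ring
  rw [this]
  exact integral_const_mul (conj c) _

theorem innerD_conj16 (e f : G K → ℂ) : conj (innerD μ F e f) = innerD μ F f e := by
  unfold innerD
  rw [← integral_conj]
  congr 1
  funext x
  rw [map_mul, Complex.conj_conj, mul_comm]

/-- `⟨e, e⟩` is the integral of `‖e‖²`. -/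
theorem innerD_self16 (e : G K → ℂ) :
    innerD μ F e e = ((∫ x in F, ‖e x‖ ^ 2 ∂μ : ℝ) : ℂ) := by
  unfold innerD
  rw [← integral_complex_ofReal]
  congr 1
  funext x
  rw [Complex.mul_conj']
  push_cast
  rfl

theorem norm_innerD_le16 (hfin : μ F < ⊤) {e f : G K → ℂ} (hec : Continuous e)
    (hfc : Continuous f) (heb : ∃ C : ℝ, ∀ g : G K, ‖e g‖ ≤ C)
    (hfb : ∃ C : ℝ, ∀ g : G K, ‖f g‖ ≤ C) :
    ‖innerD μ F e f‖ ≤ ((∫ x in F, ‖e x‖ ^ 2 ∂μ) + ∫ x in F, ‖f x‖ ^ 2 ∂μ) / 2 := by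
  have : BorelSpace (G K) := T5.H277.borelSpaceG277
  have hsq : ∀ {u : G K → ℂ}, Continuous u → (∃ C : ℝ, ∀ g : G K, ‖u g‖ ≤ C) →
      IntegrableOn (fun x => ‖u x‖ ^ 2) F μ := by
    intro u huc hub
    obtain ⟨C, hC⟩ := hub
    have hcont : Continuous fun x => ‖u x‖ ^ 2 := (continuous_norm.comp huc).pow 2
    refine Measure.integrableOn_of_bounded (M := C ^ 2) hfin.ne hcont.aestronglyMeasurable
      (Filter.Eventually.of_forall fun g => ?_)
    rw [Real.norm_eq_abs, abs_of_nonneg (by positivity)]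
    exact pow_le_pow_left₀ (norm_nonneg _) (hC g) 2
  have h1 : ‖innerD μ F e f‖ ≤ ∫ x in F, ‖e x * conj (f x)‖ ∂μ :=
    norm_integral_le_integral_norm _
  have h2 : ∫ x in F, ‖e x * conj (f x)‖ ∂μ
      ≤ ∫ x in F, (‖e x‖ ^ 2 + ‖f x‖ ^ 2) / 2 ∂μ := by
    apply integral_mono
    · exact (integrableOn_mul_conj16 hfin hec hfc heb hfb).norm
    · exact ((hsq hec heb).add (hsq hfc hfb)).div_const 2
    · intro x
      show ‖e x * conj (f x)‖ ≤ (‖e x‖ ^ 2 + ‖f x‖ ^ 2) / 2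
      rw [norm_mul, RCLike.norm_conj]
      nlinarith [sq_nonneg (‖e x‖ - ‖f x‖)]
  have h3 : ∫ x in F, (‖e x‖ ^ 2 + ‖f x‖ ^ 2) / 2 ∂μ
      = ((∫ x in F, ‖e x‖ ^ 2 ∂μ) + ∫ x in F, ‖f x‖ ^ 2 ∂μ) / 2 := by
    rw [integral_div, integral_add (hsq hec heb) (hsq hfc hfb)]
  rw [← h3]
  exact h1.trans h2

/-! ## The matrix coefficients -/

/-- `⟨R(a) ψ, R(b) ψ⟩`. -/
def P16 (μ : Measure (G K)) (F : Set (G K)) (ψ : G K → ℂ) (a b : G K) : ℂ :=
  innerD μ F (fun x => ψ (x * a)) (fun x => ψ (x * b))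

theorem P16_one_one (ψ : G K → ℂ) : P16 μ F ψ 1 1 = innerD μ F ψ ψ := by
  unfold P16
  simp only [mul_one]

theorem P16_mul_left (hN : T1.AdNormC K) (hF : IsFrame μ F) (hr : IsRayGen r) {ψ : G K → ℂ}
    (hψ : IsAutBdd16 r ψ) (h a b : G K) : P16 μ F ψ (h * a) (h * b) = P16 μ F ψ a b := by
  have ha := hψ.translate hr a
  have hb := hψ.translate hr b
  have := T7.H277.innerD_mul_right277 hN hF hr ha.cont hb.cont ha.bdd hb.bdd ha.left_inv
    hb.left_inv ha.ray hb.ray h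
  unfold P16
  simp only [mul_assoc] at this
  exact this

theorem P16_conj (ψ : G K → ℂ) (a b : G K) : conj (P16 μ F ψ a b) = P16 μ F ψ b a :=
  innerD_conj16 _ _

theorem P16_congr_left {ψ : G K → ℂ} {a a' : G K} (h : ∀ x : G K, ψ (x * a) = ψ (x * a'))
    (b : G K) : P16 μ F ψ a b = P16 μ F ψ a' b := by
  unfold P16
  congr 1
  funext x
  exact h x

theorem P16_congr_right {ψ : G K → ℂ} {b b' : G K} (h : ∀ x : G K, ψ (x * b) = ψ (x * b'))
    (a : G K) : P16 μ F ψ a b = P16 μ F ψ a b' := by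
  unfold P16
  congr 1
  funext x
  exact h x

/-- `⟨R(a) ψ, R(a) ψ⟩ = ⟨ψ, ψ⟩`. -/
theorem P16_self (hN : T1.AdNormC K) (hF : IsFrame μ F) (hr : IsRayGen r) {ψ : G K → ℂ}
    (hψ : IsAutBdd16 r ψ) (a : G K) : P16 μ F ψ a a = innerD μ F ψ ψ := by
  have := P16_mul_left hN hF hr hψ a 1 1
  rw [mul_one] at this
  rw [this, P16_one_one]

theorem norm_P16_le (hN : T1.AdNormC K) (hF : IsFrame μ F) (hr : IsRayGen r) {ψ : G K → ℂ}
    (hψ : IsAutBdd16 r ψ) (a b : G K) :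
    ‖P16 μ F ψ a b‖ ≤ ∫ x in F, ‖ψ x‖ ^ 2 ∂μ := by
  have ha := hψ.translate hr a
  have hb := hψ.translate hr b
  have h := norm_innerD_le16 hF.finite ha.cont hb.cont ha.bdd hb.bdd
  have e : ∀ c : G K, ∫ x in F, ‖ψ (x * c)‖ ^ 2 ∂μ = ∫ x in F, ‖ψ x‖ ^ 2 ∂μ := by
    intro c
    have h1 := P16_self hN hF hr hψ c
    unfold P16 at h1
    rw [innerD_self16, innerD_self16] at h1
    exact Complex.ofReal_injective h1
  rw [e a, e b] at h
  unfold P16
  linarith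

end Fermat.Agent.LT.T7.H16

end
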