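import Mathlib
import Fermat.Agent.LT.T7.Reg

/-!
# Row LT, tower T7, asset T7.L2.R (helper16): the algebra of the regular parameters

OFF-MAIN.  Complex numbers only.  From the four relations between the matrix coefficients
`N = ⟨ψ, ψ⟩ > 0`, `β = ⟨ψ, R(ω) ψ⟩`, `c₁ = ⟨R(s') ψ, ψ⟩` of a joint eigenfunction `ψ`
(`𝒰 ψ = λ ψ`, `Z ψ = b ψ`, `𝒰 = q^{-1/2} [I t I]`):

    q |λ|² N = q N + q (q - 1) c₁      (`𝒰* 𝒰 = 1 + (q - 1) q⁻¹ [I s' I]`)
    √q λ β = q c₁                       (`[I t I] = R(ω) [I s' I]` up to the order)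
    β = conj b · conj β                 (`R(ω)² = Z`, `R(ω)` unitary)
    |b| = 1, |β| ≤ N

the parameter `(b, λ)` satisfies `T7.IsRegParam √q b λ`.
-/

set_option autoImplicit false

open scoped ComplexConjugate

noncomputable section

namespace Fermat.Agent.LT.T7.H16

open Fermat.Agent.LT.T7

theorem regParam_algebra16 {q : ℕ} (hq : 2 ≤ q) {N : ℝ} (hN : 0 < N) {lam β c₁ b : ℂ}
    (h1 : (((Real.sqrt q : ℝ) : ℂ) * lam) * conj (((Real.sqrt q : ℝ) : ℂ) * lam) * (N : ℂ)
      = (q : ℂ) * (N : ℂ) + (q : ℂ) * ((q : ℂ) - 1) * c₁)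
    (h2 : (((Real.sqrt q : ℝ) : ℂ) * lam) * β = (q : ℂ) * c₁)
    (h3 : β = conj b * conj β) (h4 : ‖b‖ = 1) (h5 : ‖β‖ ≤ N) :
    IsRegParam (Real.sqrt q) b lam := by
  have hqR : (2 : ℝ) ≤ (q : ℝ) := by exact_mod_cast hq
  have hq0 : (0 : ℝ) < (q : ℝ) := by linarith
  set s : ℝ := Real.sqrt q with hs
  have hspos : 0 < s := Real.sqrt_pos.2 hq0
  have hss : s * s = (q : ℝ) := Real.mul_self_sqrt hq0.le
  have hssC : (s : ℂ) * (s : ℂ) = (q : ℂ) := by
    rw [← Complex.ofReal_mul, hss]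
    simp
  have hsC0 : (s : ℂ) ≠ 0 := Complex.ofReal_ne_zero.2 hspos.ne'
  have hqC0 : (q : ℂ) ≠ 0 := by
    have : (q : ℂ) = ((q : ℝ) : ℂ) := by simp
    rw [this]
    exact Complex.ofReal_ne_zero.2 hq0.ne'
  set L : ℝ := ‖lam‖ with hL
  have hL0 : 0 ≤ L := norm_nonneg _
  have hlamconj : lam * conj lam = ((L ^ 2 : ℝ) : ℂ) := by
    rw [Complex.mul_conj']
    push_cast
    rfl
  -- reduced relations
  have e1 : ((L ^ 2 : ℝ) : ℂ) * (N : ℂ) = (N : ℂ) + ((q : ℂ) - 1) * c₁ := by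
    have : (q : ℂ) * (((L ^ 2 : ℝ) : ℂ) * (N : ℂ)) = (q : ℂ) * ((N : ℂ) + ((q : ℂ) - 1) * c₁) := by
      rw [← hlamconj, ← hssC]
      rw [map_mul, Complex.conj_ofReal] at h1
      rw [← hssC] at h1
      linear_combination h1
    exact mul_left_cancel₀ hqC0 this
  have e2 : lam * β = (s : ℂ) * c₁ := by
    have : (s : ℂ) * (lam * β) = (s : ℂ) * ((s : ℂ) * c₁) := by
      rw [← mul_assoc, h2, ← mul_assoc, hssC]
    exact mul_left_cancel₀ hsC0 this
  -- the real number `ρ`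
  have hq1 : (0 : ℝ) < (q : ℝ) - 1 := by linarith
  set ρ : ℝ := (L ^ 2 - 1) * N * s / ((q : ℝ) - 1) with hρ
  have e3 : lam * β = (ρ : ℂ) := by
    have hq1C : ((q : ℂ) - 1) ≠ 0 := by
      have : ((q : ℂ) - 1) = (((q : ℝ) - 1 : ℝ) : ℂ) := by push_cast; ring
      rw [this]
      exact Complex.ofReal_ne_zero.2 hq1.ne'
    have hρR : ρ * ((q : ℝ) - 1) = (L ^ 2 - 1) * N * s := by
      rw [hρ]
      exact div_mul_cancel₀ _ hq1.ne'
    have hρC : (ρ : ℂ) * ((q : ℂ) - 1) = (((L ^ 2 : ℝ) : ℂ) - 1) * (N : ℂ) * (s : ℂ) := by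
      have := congrArg (fun x : ℝ => (x : ℂ)) hρR
      push_cast at this
      push_cast
      exact this
    have : ((q : ℂ) - 1) * (lam * β) = ((q : ℂ) - 1) * (ρ : ℂ) := by
      rw [e2, mul_comm ((q : ℂ) - 1) (ρ : ℂ), hρC]
      linear_combination (-(s : ℂ)) * e1
    exact mul_left_cancel₀ hq1C this
  have hnorm : L * ‖β‖ = |ρ| := by
    rw [hL, ← norm_mul, e3, Complex.norm_real, Real.norm_eq_abs]
  refine ⟨h4, ?_, ?_⟩
  · -- `‖lam‖ ≤ √q`
    by_contra hlt
    rw [not_le] at hlt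
    have hL1 : 1 < L := by
      have : (1 : ℝ) < s := by
        rw [hs]
        rw [Real.lt_sqrt (by norm_num)]
        linarith
      linarith
    have hpos : 0 < (L ^ 2 - 1) * N * s / ((q : ℝ) - 1) := by
      apply div_pos _ hq1
      apply mul_pos (mul_pos _ hN) hspos
      nlinarith
    have hρabs : |ρ| = ρ := abs_of_pos hpos
    have hle : ρ ≤ L * N := by
      rw [← hρabs, ← hnorm]
      exact mul_le_mul_of_nonneg_left h5 hL0
    rw [hρ, div_le_iff₀ hq1] at hle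
    -- `(L² - 1) s ≤ L (q - 1)`
    have h6 : (L ^ 2 - 1) * s ≤ L * ((q : ℝ) - 1) := by
      have : (L ^ 2 - 1) * N * s ≤ L * N * ((q : ℝ) - 1) := hle
      have h7 : ((L ^ 2 - 1) * s) * N ≤ (L * ((q : ℝ) - 1)) * N := by linarith
      exact le_of_mul_le_mul_right h7 hN
    -- `(s L + 1) (L - s) ≤ 0`
    have h8 : (s * L + 1) * (L - s) ≤ 0 := by
      have : (s * L + 1) * (L - s) = (L ^ 2 - 1) * s - L * (s * s - 1) := by ring
      rw [this, hss]
      linarith
    have h9 : 0 < (s * L + 1) * (L - s) := by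
      apply mul_pos
      · positivity
      · linarith
    linarith
  · -- tempered or complementary
    by_cases hL1 : L = 1
    · exact Or.inl hL1
    · right
      have hρ0 : ρ ≠ 0 := by
        rw [hρ]
        apply div_ne_zero _ hq1.ne'
        apply mul_ne_zero (mul_ne_zero _ hN.ne') hspos.ne'
        intro h
        have : L ^ 2 = 1 := by linarith
        have : L = 1 := by
          have h' : (L - 1) * (L + 1) = 0 := by ring_nf; linarith
          rcases mul_eq_zero.1 h' with h'' | h''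
          · linarith
          · linarith
        exact hL1 this
      have hβ0 : β ≠ 0 := by
        intro h
        rw [h, mul_zero] at e3
        exact hρ0 (Complex.ofReal_eq_zero.1 e3.symm)
      have hβn : 0 < ‖β‖ := norm_pos_iff.2 hβ0
      have hbb : b * conj b = 1 := by
        rw [Complex.mul_conj', h4]
        simp
      have hβsq : β * β = conj b * ((‖β‖ ^ 2 : ℝ) : ℂ) := by
        have : β * conj β = ((‖β‖ ^ 2 : ℝ) : ℂ) := by
          rw [Complex.mul_conj']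
          push_cast
          rfl
        rw [← this]
        calc β * β = β * (conj b * conj β) := by rw [← h3]
          _ = conj b * (β * conj β) := by ring
      refine ⟨ρ ^ 2 / ‖β‖ ^ 2, by positivity, ?_⟩
      -- `lam² β² = ρ²`
      have h10 : lam ^ 2 * (β * β) = ((ρ ^ 2 : ℝ) : ℂ) := by
        have : lam ^ 2 * (β * β) = (lam * β) * (lam * β) := by ring
        rw [this, e3]
        push_cast
        ring
      rw [hβsq] at h10
      have hn2 : ((‖β‖ ^ 2 : ℝ) : ℂ) ≠ 0 := Complex.ofReal_ne_zero.2 (by positivity)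
      have h11 : lam ^ 2 * conj b = ((ρ ^ 2 / ‖β‖ ^ 2 : ℝ) : ℂ) := by
        rw [Complex.ofReal_div]
        rw [eq_div_iff hn2, ← h10]
        ring
      calc lam ^ 2 = lam ^ 2 * (b * conj b) := by rw [hbb, mul_one]
        _ = (lam ^ 2 * conj b) * b := by ring
        _ = ((ρ ^ 2 / ‖β‖ ^ 2 : ℝ) : ℂ) * b := by rw [h11]

end Fermat.Agent.LT.T7.H16

end
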