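import Mathlib
import Fermat.Agent.LT.T7.Level2
import Fermat.Agent.LT.T7.H16.IwAdelic
import Fermat.Agent.LT.T7.H16.Pair
import Fermat.Agent.LT.T7.H16.RegAlgebra

/-!
# Row LT, tower T7, asset T7.L2.R (helper16): THE REGULAR PARAMETERS OF A JOINT EIGENFUNCTION

OFF-MAIN.  Vocabulary: `T7/Level2.lean` (helper797, sha256 15516646) VERBATIM.

    isRegParam_of_eig16 :
      T1.AdNormC K → IsFrame μ F → IsRayGen r → IsWFn 𝔫 r l o ψ → 0 < l →
      innerD μ F ψ ψ ≠ 0 → IsIwCosetSystem (o 0) H → IsScalarUniformizerAt (o 0) z →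
      (∀ x, iwOp (o 0) H ψ x = λ * ψ x) → (∀ x, shiftOp z 1 ψ x = b * ψ x) →
      IsRegParam (√q) b λ                      (q = N(o 0))

(`isRegParam_of_eig_core16`: the same for any continuous bounded function on
`GL₂(K) ⟨r⟩ \ GL₂(𝔸_K)` which is right invariant under the elements of the Iwahori subgroup
supported at `w`.)  This is the field `IsRegParam` of the atoms of `SpecUpC` / `SpecDownC`.

Proof.  `P(a, b) = ⟨R(a) ψ, R(b) ψ⟩` is invariant under `(a, b) ↦ (h a, h b)` (translation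
invariance of `∫_F`, helper277) and under `a ↦ a k`, `b ↦ b k` (`k` Iwahori).  With
`ω = antidiag(1, c)` (`ω² = z`, `ω` normalises `I`): `H ω⁻¹ ⊆ GL₂(𝒪) \ I = I s I` (Bruhat), hence
`P(h, ω) = c₁ := P(s ω, ω)` for `h ∈ H` and `P(h, h') = c₁` for `h ≠ h'` in `H`.  Therefore
`q |λ|² N = ‖[I t I] ψ‖² = q N + q (q - 1) c₁`, `√q λ β = ⟨[I t I] ψ, R(ω) ψ⟩ = q c₁`
(`β = P(1, ω)`), `β = P(ω, ω²) = conj b · conj β`, and `RegAlgebra.lean` concludes.
No classification of the cosets, no count of the residue field.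
-/

set_option autoImplicit false

open IsDedekindDomain NumberField MeasureTheory WithZero
open scoped ComplexConjugate

noncomputable section

namespace Fermat.Agent.LT.T7.H16

open Fermat.Agent.LT.H556.A0 Fermat.Agent.LT.T5 Fermat.Agent.LT.H129 Fermat.Agent.LT.T7

attribute [local instance] Fermat.Agent.LT.T5.instMeasurableSpaceG

variable {K : Type} [Field K] [NumberField K]

/-! ## The elements `ω` and `s` -/

section Elements

variable (w : HeightOneSpectrum (𝓞 K))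

theorem det_omegaM16 (c : w.adicCompletion K) : (omegaM16 c).det = -c := by
  unfold omegaM16
  rw [Matrix.det_fin_two_of]
  ring

theorem det_weyl16 : (!![0, 1; 1, 0] : Matrix (Fin 2) (Fin 2) (w.adicCompletion K)).det ≠ 0 := by
  rw [Matrix.det_fin_two_of]
  norm_num

/-- `ω = antidiag(1, c)` at `w`. -/
def omegaG16 (c : w.adicCompletion K) (hc : c ≠ 0) : G K :=
  locOf16 w (omegaM16 c) (by rw [det_omegaM16]; exact neg_ne_zero.2 hc)

/-- `s = antidiag(1, 1)` at `w`. -/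
def weylG16 : G K := locOf16 w !![0, 1; 1, 0] (det_weyl16 w)

variable {w}

theorem finComp_omegaG16 (c : w.adicCompletion K) (hc : c ≠ 0) :
    finComp w (omegaG16 w c hc) = omegaM16 c :=
  finComp_locOf16 w _ _

theorem finComp_omegaG16_inv (c : w.adicCompletion K) (hc : c ≠ 0) :
    finComp w (omegaG16 w c hc)⁻¹ = omegaInvM16 c := by
  rw [finComp_inv16', finComp_omegaG16]
  exact Matrix.inv_eq_right_inv (omegaM16_mul_inv hc)

theorem isLocalAtFin_omegaG16 (c : w.adicCompletion K) (hc : c ≠ 0) :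
    IsLocalAtFin w (omegaG16 w c hc) :=
  isLocalAtFin_locOf16 w _ _

theorem omegaG16_sq {z : G K} (hz : IsLocalAtFin w z) (c : w.adicCompletion K) (hc : c ≠ 0)
    (hzc : finComp w z = Matrix.diagonal (fun _ => c)) :
    omegaG16 w c hc * omegaG16 w c hc = z := by
  refine eq_of_local16 (isLocalAtFin_mul129 (isLocalAtFin_omegaG16 c hc)
    (isLocalAtFin_omegaG16 c hc)) hz ?_
  rw [finComp_mul16, finComp_omegaG16, omegaM16_sq, hzc]

/-- Conjugation by `ω` preserves the Iwahori elements supported at `w`. -/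
theorem conj_omegaG16 {c : w.adicCompletion K} (hcv : vw16 w c = exp (-1 : ℤ)) {k : G K}
    (hk : IsLocalAtFin w k) (hI : InIwahori w k) :
    IsLocalAtFin w ((omegaG16 w c (ne_zero_of_v16 hcv))⁻¹ * k * omegaG16 w c (ne_zero_of_v16 hcv))
      ∧ InIwahori w
        ((omegaG16 w c (ne_zero_of_v16 hcv))⁻¹ * k * omegaG16 w c (ne_zero_of_v16 hcv)) := by
  have hc := ne_zero_of_v16 hcv
  refine ⟨isLocalAtFin_mul129 (isLocalAtFin_mul129
    (isLocalAtFin_inv129 (isLocalAtFin_omegaG16 c hc)) hk) (isLocalAtFin_omegaG16 c hc), ?_⟩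
  rw [inIwahori_iff16, finComp_mul16, finComp_mul16, finComp_omegaG16_inv, finComp_omegaG16]
  exact isIw16_conj hcv ((inIwahori_iff16 w k).1 hI)

end Elements

/-! ## The core -/

section Core

variable {μ : Measure (G K)} {F : Set (G K)} {r : G K} {w : HeightOneSpectrum (𝓞 K)}
  {ψ : G K → ℂ}

/-- Right invariance of the matrix coefficients. -/
theorem P16_mul_right_left
    (hI : ∀ k : G K, IsLocalAtFin w k → InIwahori w k → ∀ x : G K, ψ (x * k) = ψ x)
    {k : G K} (hk : IsLocalAtFin w k) (hkI : InIwahori w k) (a b : G K) :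
    P16 μ F ψ (a * k) b = P16 μ F ψ a b :=
  P16_congr_left (fun x => by rw [← mul_assoc, hI k hk hkI]) b

theorem P16_mul_right_right
    (hI : ∀ k : G K, IsLocalAtFin w k → InIwahori w k → ∀ x : G K, ψ (x * k) = ψ x)
    {k : G K} (hk : IsLocalAtFin w k) (hkI : InIwahori w k) (a b : G K) :
    P16 μ F ψ a (b * k) = P16 μ F ψ a b :=
  P16_congr_right (fun x => by rw [← mul_assoc, hI k hk hkI]) a

/-- **Constancy on `GL₂(𝒪) \ I`.** -/
theorem P16_J16 (hN : T1.AdNormC K) (hF : IsFrame μ F) (hr : IsRayGen r)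
    (hψ : IsAutBdd16 r ψ)
    (hI : ∀ k : G K, IsLocalAtFin w k → InIwahori w k → ∀ x : G K, ψ (x * k) = ψ x)
    {c : w.adicCompletion K} (hcv : vw16 w c = exp (-1 : ℤ)) {κ : G K}
    (hκ : IsLocalAtFin w κ) (hJ : IsJ16 (vw16 w) (finComp w κ)) :
    P16 μ F ψ (κ * omegaG16 w c (ne_zero_of_v16 hcv)) (omegaG16 w c (ne_zero_of_v16 hcv))
      = P16 μ F ψ (weylG16 w * omegaG16 w c (ne_zero_of_v16 hcv))
          (omegaG16 w c (ne_zero_of_v16 hcv)) := by
  set ω := omegaG16 w c (ne_zero_of_v16 hcv) with hω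
  obtain ⟨n, b, hn, hb, e⟩ := bruhat16 hJ
  set kn : G K := locOf16 w n (det_ne_zero16 hn.1) with hkn
  set kb : G K := locOf16 w b (det_ne_zero16 hb.1) with hkb
  have hknL : IsLocalAtFin w kn := isLocalAtFin_locOf16 w _ _
  have hkbL : IsLocalAtFin w kb := isLocalAtFin_locOf16 w _ _
  have hknI : InIwahori w kn := by
    rw [inIwahori_iff16, hkn, finComp_locOf16]
    exact hn
  have hkbI : InIwahori w kb := by
    rw [inIwahori_iff16, hkb, finComp_locOf16]
    exact hb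
  have hκe : κ = kn * weylG16 w * kb := by
    refine eq_of_local16 hκ (isLocalAtFin_mul129 (isLocalAtFin_mul129 hknL
      (isLocalAtFin_locOf16 w _ _)) hkbL) ?_
    rw [finComp_mul16, finComp_mul16, hkn, hkb, finComp_locOf16, finComp_locOf16]
    unfold weylG16
    rw [finComp_locOf16]
    exact e
  obtain ⟨h1L, h1I⟩ := conj_omegaG16 hcv hkbL hkbI
  obtain ⟨h2L, h2I⟩ := conj_omegaG16 hcv (isLocalAtFin_inv129 hknL) (inIwahori_inv16 w hknI)
  have e1 : κ * ω = kn * (weylG16 w * ω) * (ω⁻¹ * kb * ω) := by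
    rw [hκe]
    group
  have e2 : kn⁻¹ * ω = ω * (ω⁻¹ * kn⁻¹ * ω) := by group
  calc P16 μ F ψ (κ * ω) ω
      = P16 μ F ψ (kn * (weylG16 w * ω)) ω := by
        rw [e1]
        exact P16_mul_right_left hI h1L h1I _ _
    _ = P16 μ F ψ (kn * (weylG16 w * ω)) (kn * (kn⁻¹ * ω)) := by
        rw [mul_inv_cancel_left]
    _ = P16 μ F ψ (weylG16 w * ω) (kn⁻¹ * ω) := P16_mul_left hN hF hr hψ _ _ _
    _ = P16 μ F ψ (weylG16 w * ω) ω := by
        rw [e2]
        exact P16_mul_right_right hI h2L h2I _ _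

/-- The elements of `I diag(c', 1) I ω⁻¹` lie in `GL₂(𝒪) \ I`. -/
theorem isJ16_of_coset16 {c : w.adicCompletion K} (hcv : vw16 w c = exp (-1 : ℤ)) {h : G K}
    (hh : InIwahoriCoset w 1 h) :
    IsJ16 (vw16 w) (finComp w (h * (omegaG16 w c (ne_zero_of_v16 hcv))⁻¹)) := by
  obtain ⟨k₁, k₂, t, c', hk₁, hk₂, hc', ht, hfin⟩ := hh
  rw [finComp_mul16, hfin, finComp_mul16, finComp_mul16, ht, finComp_omegaG16_inv]
  have hc'' : vw16 w c' = exp (-1 : ℤ) := by
    rw [hc']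
    norm_num
  exact isJ16_coset hcv hc'' ((inIwahori_iff16 w k₁).1 hk₁) ((inIwahori_iff16 w k₂).1 hk₂)

theorem two_le_absNorm16 (w : HeightOneSpectrum (𝓞 K)) : 2 ≤ Ideal.absNorm w.asIdeal := by
  have h0 : Ideal.absNorm w.asIdeal ≠ 0 := by
    rw [Ne, Ideal.absNorm_eq_zero_iff]
    exact w.ne_bot
  have h1 : Ideal.absNorm w.asIdeal ≠ 1 := by
    rw [Ne, Ideal.absNorm_eq_one_iff]
    exact w.isPrime.ne_top
  omega

/-- **THE CORE**: the regular parameters of a joint eigenfunction of `𝒰` and `Z` at `w`. -/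
theorem isRegParam_of_eig_core16 (hN : T1.AdNormC K) (hF : IsFrame μ F) (hr : IsRayGen r)
    (hψ : IsAutBdd16 r ψ)
    (hI : ∀ k : G K, IsLocalAtFin w k → InIwahori w k → ∀ x : G K, ψ (x * k) = ψ x)
    (hne : innerD μ F ψ ψ ≠ 0)
    {H : Finset (G K)} (hH : IsIwCosetSystem w H) {z : G K} (hz : IsScalarUniformizerAt w z)
    {b lam : ℂ} (hU : ∀ x : G K, iwOp w H ψ x = lam * ψ x)
    (hZ : ∀ x : G K, shiftOp z 1 ψ x = b * ψ x) :
    IsRegParam (Real.sqrt (Ideal.absNorm w.asIdeal : ℝ)) b lam := by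
  classical
  obtain ⟨hzL, c, hcv, hzc⟩ := hz
  have hcv' : vw16 w c = exp (-1 : ℤ) := hcv
  have hc0 : c ≠ 0 := ne_zero_of_v16 hcv'
  set ω : G K := omegaG16 w c (ne_zero_of_v16 hcv') with hω
  have hωL : IsLocalAtFin w ω := isLocalAtFin_omegaG16 c hc0
  have hωz : ω * ω = z := omegaG16_sq hzL c hc0 hzc
  obtain ⟨hcard, hHloc, hHsep⟩ := hH
  set q : ℕ := Ideal.absNorm w.asIdeal with hq
  have hq2 : 2 ≤ q := two_le_absNorm16 w
  set sq : ℂ := ((Real.sqrt (q : ℝ) : ℝ) : ℂ) with hsq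
  have hsq0 : sq ≠ 0 := by
    rw [hsq]
    refine Complex.ofReal_ne_zero.2 (Real.sqrt_pos.2 ?_).ne'
    have : (2 : ℝ) ≤ (q : ℝ) := by exact_mod_cast hq2
    linarith
  -- the eigen-equations
  have hU' : ∀ x : G K, ∑ h ∈ H, ψ (x * h) = sq * lam * ψ x := by
    intro x
    have := hU x
    unfold iwOp at this
    rw [mul_assoc, ← this, ← mul_assoc, mul_inv_cancel₀ hsq0, one_mul]
  have hZ' : ∀ x : G K, ψ (x * z) = b * ψ x := by
    intro x
    have := hZ x
    unfold shiftOp at this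
    rwa [zpow_one] at this
  have hUfun : (fun x => ∑ h ∈ H, ψ (x * h)) = fun x => sq * lam * ψ x := funext hU'
  have hZfun : (fun x => ψ (x * z)) = fun x => b * ψ x := funext hZ'
  -- the norm
  set N : ℝ := ∫ x in F, ‖ψ x‖ ^ 2 ∂μ with hNdef
  have hNN : innerD μ F ψ ψ = (N : ℂ) := innerD_self16 ψ
  have hN0 : 0 < N := by
    have h0 : 0 ≤ N := integral_nonneg fun x => by positivity
    refine lt_of_le_of_ne h0 fun h => hne ?_
    rw [hNN, ← h]
    simp
  -- the constants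
  set β : ℂ := P16 μ F ψ 1 ω with hβ
  set c₁ : ℂ := P16 μ F ψ (weylG16 w * ω) ω with hc₁
  have htr : ∀ a : G K, Continuous (fun x => ψ (x * a)) ∧ ∃ C : ℝ, ∀ g : G K, ‖ψ (g * a)‖ ≤ C :=
    fun a => ⟨(hψ.translate hr a).cont, (hψ.translate hr a).bdd⟩
  -- `P(h, ω) = c₁`
  have hPω : ∀ h ∈ H, P16 μ F ψ h ω = c₁ := by
    intro h hh
    have hJ := isJ16_of_coset16 hcv' (hHloc h hh).2
    have hL : IsLocalAtFin w (h * ω⁻¹) :=
      isLocalAtFin_mul129 (hHloc h hh).1 (isLocalAtFin_inv129 hωL)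
    have := P16_J16 hN hF hr hψ hI hcv' hL hJ
    rw [inv_mul_cancel_right] at this
    exact this
  -- `P(h, h') = c₁` for `h ≠ h'`
  have hPhh : ∀ h ∈ H, ∀ h' ∈ H, h' ≠ h → P16 μ F ψ h h' = c₁ := by
    intro h hh h' hh' hne'
    have hJ := isJ16_of_coset16 hcv' (hHloc h hh).2
    have hJ' := isJ16_of_coset16 hcv' (hHloc h' hh').2
    have hL : IsLocalAtFin w (h * ω⁻¹) :=
      isLocalAtFin_mul129 (hHloc h hh).1 (isLocalAtFin_inv129 hωL)
    have hL' : IsLocalAtFin w (h' * ω⁻¹) :=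
      isLocalAtFin_mul129 (hHloc h' hh').1 (isLocalAtFin_inv129 hωL)
    have hκL : IsLocalAtFin w ((h' * ω⁻¹)⁻¹ * (h * ω⁻¹)) :=
      isLocalAtFin_mul129 (isLocalAtFin_inv129 hL') hL
    have hκG : IsGLO16 (vw16 w) (finComp w ((h' * ω⁻¹)⁻¹ * (h * ω⁻¹))) := by
      rw [finComp_mul16, finComp_inv16']
      exact isGLO16_mul (isGLO16_inv hJ'.1) hJ.1
    have hκJ : IsJ16 (vw16 w) (finComp w ((h' * ω⁻¹)⁻¹ * (h * ω⁻¹))) := by
      refine isJ16_of_not_isIw hκG fun hIw => ?_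
      have hIw' : InIwahori w ((h' * ω⁻¹)⁻¹ * (h * ω⁻¹)) := (inIwahori_iff16 w _).2 hIw
      have := (conj_omegaG16 hcv' hκL hIw').2
      have e : ω⁻¹ * ((h' * ω⁻¹)⁻¹ * (h * ω⁻¹)) * ω = h'⁻¹ * h := by group
      rw [← hω, e] at this
      exact hHsep h' hh' h hh hne' this
    have := P16_J16 hN hF hr hψ hI hcv' hκL hκJ
    rw [← hω] at this
    rw [← hc₁] at this
    rw [← this]
    have e : (h' * ω⁻¹)⁻¹ * (h * ω⁻¹) * ω = (h' * ω⁻¹)⁻¹ * h := by group
    rw [e]
    have h3 := P16_mul_left hN hF hr hψ (h' * ω⁻¹) ((h' * ω⁻¹)⁻¹ * h) ω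
    rw [mul_inv_cancel_left, inv_mul_cancel_right] at h3
    exact h3
  -- (E1)
  have hUbdd : Continuous (fun x => ∑ h ∈ H, ψ (x * h)) ∧
      ∃ C : ℝ, ∀ g : G K, ‖∑ h ∈ H, ψ (g * h)‖ ≤ C := by
    refine ⟨?_, ?_⟩
    · rw [hUfun]
      exact (hψ.const_mul (sq * lam)).cont
    · obtain ⟨C, hC⟩ := (hψ.const_mul (sq * lam)).bdd
      exact ⟨C, fun g => by rw [hU' g]; exact hC g⟩
  have E1 : sq * lam * conj (sq * lam) * (N : ℂ)
      = (q : ℂ) * (N : ℂ) + (q : ℂ) * ((q : ℂ) - 1) * c₁ := by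
    have hA : innerD μ F (fun x => ∑ h ∈ H, ψ (x * h)) (fun x => ∑ h ∈ H, ψ (x * h))
        = sq * lam * conj (sq * lam) * (N : ℂ) := by
      rw [hUfun, innerD_const_mul_left16, innerD_const_mul_right16, hNN]
      ring
    have hB : innerD μ F (fun x => ∑ h ∈ H, ψ (x * h)) (fun x => ∑ h ∈ H, ψ (x * h))
        = ∑ h ∈ H, ∑ h' ∈ H, P16 μ F ψ h h' := by
      rw [innerD_sum_left16 hF.finite H (fun h x => ψ (x * h)) (fun h _ => htr h)
        hUbdd.1 hUbdd.2]
      refine Finset.sum_congr rfl fun h _ => ?_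
      rw [innerD_sum_right16 hF.finite H (fun h x => ψ (x * h)) (fun h _ => htr h)
        (htr h).1 (htr h).2]
      rfl
    have hC : ∀ h ∈ H, ∑ h' ∈ H, P16 μ F ψ h h' = (N : ℂ) + ((q : ℂ) - 1) * c₁ := by
      intro h hh
      rw [← Finset.add_sum_erase H _ hh, P16_self hN hF hr hψ, hNN]
      congr 1
      rw [Finset.sum_congr rfl (fun h' hh' =>
        hPhh h hh h' (Finset.mem_of_mem_erase hh') (Finset.ne_of_mem_erase hh'))]
      rw [Finset.sum_const, Finset.card_erase_of_mem hh, hcard, nsmul_eq_mul]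
      have : ((q - 1 : ℕ) : ℂ) = (q : ℂ) - 1 := by
        rw [Nat.cast_sub (by omega)]
        simp
      rw [this]
    rw [← hA, hB, Finset.sum_congr rfl hC, Finset.sum_const, hcard, nsmul_eq_mul]
    ring
  -- (E2)
  have E2 : sq * lam * β = (q : ℂ) * c₁ := by
    have hA : innerD μ F (fun x => ∑ h ∈ H, ψ (x * h)) (fun x => ψ (x * ω)) = sq * lam * β := by
      rw [hUfun, innerD_const_mul_left16, hβ]
      unfold P16
      simp only [mul_one]
    have hB : innerD μ F (fun x => ∑ h ∈ H, ψ (x * h)) (fun x => ψ (x * ω))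
        = ∑ h ∈ H, P16 μ F ψ h ω := by
      rw [innerD_sum_left16 hF.finite H (fun h x => ψ (x * h)) (fun h _ => htr h)
        (htr ω).1 (htr ω).2]
      rfl
    rw [← hA, hB, Finset.sum_congr rfl hPω, Finset.sum_const, hcard, nsmul_eq_mul]
  -- (E3)
  have E3 : β = conj b * conj β := by
    have h1 := P16_mul_left hN hF hr hψ ω 1 ω
    rw [mul_one, hωz] at h1
    have h2 : P16 μ F ψ ω z = conj b * P16 μ F ψ ω 1 := by
      unfold P16
      rw [hZfun, innerD_const_mul_right16]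
      simp only [mul_one]
    calc β = P16 μ F ψ ω z := h1.symm
      _ = conj b * P16 μ F ψ ω 1 := h2
      _ = conj b * conj β := by rw [hβ, P16_conj]
  -- (E4)
  have E4 : ‖b‖ = 1 := by
    have h1 := P16_self hN hF hr hψ z
    have h2 : P16 μ F ψ z z = b * conj b * innerD μ F ψ ψ := by
      unfold P16
      rw [hZfun, innerD_const_mul_left16, innerD_const_mul_right16]
      ring
    rw [h2] at h1
    have h3 : b * conj b = 1 := by
      have : (b * conj b - 1) * innerD μ F ψ ψ = 0 := by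
        rw [sub_mul, h1, one_mul, sub_self]
      rcases mul_eq_zero.1 this with h | h
      · exact sub_eq_zero.1 h
      · exact absurd h hne
    rw [Complex.mul_conj'] at h3
    have h4 : ‖b‖ ^ 2 = 1 := by exact_mod_cast h3
    have h5 : (‖b‖ - 1) * (‖b‖ + 1) = 0 := by ring_nf; linarith
    rcases mul_eq_zero.1 h5 with h | h
    · linarith
    · have := norm_nonneg b
      linarith
  -- (E5)
  have E5 : ‖β‖ ≤ N := norm_P16_le hN hF hr hψ 1 ω
  exact regParam_algebra16 hq2 hN0 E1 E2 E3 E4 E5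

end Core

/-! ## The statement on the vocabulary of level 2 -/

/-- **T7.L2.R**: a joint eigenfunction of the Iwahori operator `𝒰` (eigenvalue `λ`) and of the
central shift `Z` (eigenvalue `b`) at the place `o 0`, among the invariant cusp functions, has
regular parameters. -/
theorem isRegParam_of_eig16 (hN : T1.AdNormC K) {μ : Measure (G K)} {F : Set (G K)} {r : G K}
    (hF : IsFrame μ F) (hr : IsRayGen r) {𝔫 : Ideal (𝓞 K)} {l : ℕ}
    {o : ℕ → HeightOneSpectrum (𝓞 K)} (hl : 0 < l) {ψ : G K → ℂ} (hψ : IsWFn 𝔫 r l o ψ)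
    (hne : innerD μ F ψ ψ ≠ 0) {H : Finset (G K)} (hH : IsIwCosetSystem (o 0) H) {z : G K}
    (hz : IsScalarUniformizerAt (o 0) z) {b lam : ℂ}
    (hU : ∀ x : G K, iwOp (o 0) H ψ x = lam * ψ x)
    (hZ : ∀ x : G K, shiftOp z 1 ψ x = b * ψ x) :
    IsRegParam (Real.sqrt (Ideal.absNorm (o 0).asIdeal : ℝ)) b lam := by
  refine isRegParam_of_eig_core16 hN hF hr (isAutBdd16_of_cusp hψ.cusp) ?_ hne hH hz hU hZ
  intro k hk hkI x
  refine hψ.iw k hk.1 (fun v hv => hk.2 v (hv 0 hl)) (fun j _ => ?_) x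
  exact inIwahori_all_of_local16 hk hkI (o j)

end Fermat.Agent.LT.T7.H16

end
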