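import Mathlib
import Fermat.Agent.LT.T5.H599.Diag
import Fermat.Agent.LT.T7.H16.RegParamEig

/-!
# Row LT, tower T7, asset T7.L2.R (helper16): `T5.innerD` is positive definite on continuous
automorphic functions

OFF-MAIN.  `innerD_self_ne_zero16`: a continuous bounded function `ψ ≢ 0` on
`GL₂(K) ⟨r⟩ \ GL₂(𝔸_K)` has `⟨ψ, ψ⟩ ≠ 0` (unfolding `lintegral_unfold599` of helper599: if
`∫_F ‖ψ‖² = 0` then `∫_{GL₂(𝔸_K)} ‖ψ‖² = 0`, and a Haar measure is positive on open sets).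
Consequence `isRegParam_of_eig16'`: the hypothesis `innerD μ F ψ ψ ≠ 0` of
`isRegParam_of_eig16` may be replaced by `∃ x, ψ x ≠ 0`.
-/

set_option autoImplicit false

open IsDedekindDomain NumberField MeasureTheory
open scoped ComplexConjugate ENNReal

noncomputable section

namespace Fermat.Agent.LT.T7.H16

open Fermat.Agent.LT.H556.A0 Fermat.Agent.LT.T5 Fermat.Agent.LT.T7

attribute [local instance] Fermat.Agent.LT.T5.instMeasurableSpaceG

variable {K : Type} [Field K] [NumberField K]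

variable {μ : Measure (G K)} {F : Set (G K)} {r : G K}

theorem innerD_self_ne_zero16 (hN : T1.AdNormC K) (hF : IsFrame μ F) (hr : IsRayGen r)
    {ψ : G K → ℂ} (hψ : IsAutBdd16 r ψ) (hne : ∃ x : G K, ψ x ≠ 0) :
    innerD μ F ψ ψ ≠ 0 := by
  have hB : BorelSpace (G K) := T5.H277.borelSpaceG277
  have hH := hF.haar
  intro h0
  rw [innerD_self16] at h0
  have hN0 : ∫ x in F, ‖ψ x‖ ^ 2 ∂μ = 0 := Complex.ofReal_eq_zero.1 h0
  -- the function `‖ψ‖²` with values in `[0, ∞]`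
  set f : G K → ℝ≥0∞ := fun x => ENNReal.ofReal (‖ψ x‖ ^ 2) with hf
  have hcont : Continuous fun x => ‖ψ x‖ ^ 2 := (continuous_norm.comp hψ.cont).pow 2
  have hint : IntegrableOn (fun x => ‖ψ x‖ ^ 2) F μ := by
    obtain ⟨C, hC⟩ := hψ.bdd
    refine Measure.integrableOn_of_bounded (M := C ^ 2) hF.finite.ne hcont.aestronglyMeasurable
      (Filter.Eventually.of_forall fun g => ?_)
    rw [Real.norm_eq_abs, abs_of_nonneg (by positivity)]
    exact pow_le_pow_left₀ (norm_nonneg _) (hC g) 2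
  have hF0 : ∫⁻ x in F, f x ∂μ = 0 := by
    rw [hf, ← ofReal_integral_eq_lintegral_ofReal hint
      (Filter.Eventually.of_forall fun x => by positivity), hN0, ENNReal.ofReal_zero]
  have hinv : ∀ (p : T5.H599.Gam599 K) (x : G K), f (T5.H599.iota599 hr p * x) = f x := by
    intro p x
    have : ψ (T5.H599.iota599 hr p * x) = ψ x := by
      rw [T5.H599.iota_apply599, mul_assoc, hψ.left_inv,
        T5.H599.zpow_commute599 hr, T7.H277.zpow_inv_of_ray277 hψ.ray]
    simp only [hf, this]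
  have hG0 : ∫⁻ x, f x ∂μ = 0 := by
    rw [T5.H599.lintegral_unfold599 hN hF hr f]
    simp only [hinv, hF0, tsum_zero]
  have hfm : Measurable f := (ENNReal.measurable_ofReal.comp hcont.measurable)
  have hae : f =ᵐ[μ] 0 := (lintegral_eq_zero_iff hfm).1 hG0
  have hopen : IsOpen {x : G K | ψ x ≠ 0} := isOpen_ne_fun hψ.cont continuous_const
  have hzero : μ {x : G K | ψ x ≠ 0} = 0 := by
    rw [measure_eq_zero_iff_ae_notMem]
    refine hae.mono fun x hx hx' => ?_
    have h1 : f x = 0 := hx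
    rw [hf] at h1
    have h2 : ‖ψ x‖ ^ 2 ≤ 0 := ENNReal.ofReal_eq_zero.1 h1
    have h4 : ‖ψ x‖ ^ 2 = 0 := le_antisymm h2 (sq_nonneg _)
    have h3 : ‖ψ x‖ = 0 := (pow_eq_zero_iff two_ne_zero).1 h4
    exact hx' (norm_eq_zero.1 h3)
  obtain ⟨x, hx⟩ := hne
  have hempty := (hopen.measure_eq_zero_iff μ).1 hzero
  have : x ∈ ({x : G K | ψ x ≠ 0} : Set (G K)) := hx
  rw [hempty] at this
  exact this

/-- **T7.L2.R**, second form: the eigenfunction is not identically zero. -/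
theorem isRegParam_of_eig16' (hN : T1.AdNormC K) (hF : IsFrame μ F) (hr : IsRayGen r)
    {𝔫 : Ideal (𝓞 K)} {l : ℕ} {o : ℕ → HeightOneSpectrum (𝓞 K)} (hl : 0 < l) {ψ : G K → ℂ}
    (hψ : IsWFn 𝔫 r l o ψ) (hne : ∃ x : G K, ψ x ≠ 0) {H : Finset (G K)}
    (hH : IsIwCosetSystem (o 0) H) {z : G K} (hz : IsScalarUniformizerAt (o 0) z) {b lam : ℂ}
    (hU : ∀ x : G K, iwOp (o 0) H ψ x = lam * ψ x)
    (hZ : ∀ x : G K, shiftOp z 1 ψ x = b * ψ x) :
    IsRegParam (Real.sqrt (Ideal.absNorm (o 0).asIdeal : ℝ)) b lam :=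
  isRegParam_of_eig16 hN hF hr hl hψ
    (innerD_self_ne_zero16 hN hF hr (isAutBdd16_of_cusp hψ.cusp) hne) hH hz hU hZ

end Fermat.Agent.LT.T7.H16

end
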