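import Mathlib
import Fermat.Agent.LT.T1.H309.AdNorm
import Fermat.Agent.LT.T7.H534.DownBasisSpec
import Fermat.Agent.LT.T7.H772.SpecDown
import Fermat.Agent.LT.T7.H16.PosDef

/-!
# Row LT, tower T7, node T7.L2.3 `SpecDownC`: the REG-PARAM leaves of the two cuts, VERBATIM
(helper16)

OFF-MAIN.  Unconditional.

* `regParamFnC16 K : SD534.RegParamFnC K` -- leaf DB.6 of the cut of helper534
  (`LT/T7/H534/DownBasisSpec.lean`, sha256 b2d5929f);
* `shapeC772_16 K : H772.ShapeC772 K` -- leaf T7.L2.3.B of the cut of helper772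
  (`LT/T7/H772/SpecDown.lean`, sha256 5a2e47fe).

Both from `isRegParam_of_eig16'` (`PosDef.lean`) and the closed leaf `T1.AdNormC`
(`adNormC309`, helper309).
-/

set_option autoImplicit false

open IsDedekindDomain NumberField MeasureTheory

noncomputable section

namespace Fermat.Agent.LT.T7.H16

open Fermat.Agent.LT.H556.A0 Fermat.Agent.LT.T5 Fermat.Agent.LT.T7

attribute [local instance] Fermat.Agent.LT.T5.instMeasurableSpaceG

variable (K : Type) [Field K] [NumberField K]

/-- **Leaf DB.6 `RegParamFnC` of helper534, VERBATIM.** -/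
theorem regParamFnC16 : SD534.RegParamFnC K := by
  intro μ F r 𝔫 u H z _ hF hr _ hH hz ψ b l hW hne hZ hU
  refine isRegParam_of_eig16' (T1.H309.adNormC309 (K := K)) hF hr (l := 1) (o := fun _ => u)
    one_pos hW hne hH hz (fun x => ?_) (fun x => ?_)
  · have := congrFun hU x
    simpa using this
  · have := congrFun hZ x
    simpa using this

/-- **Leaf T7.L2.3.B `ShapeC772` of helper772, VERBATIM.** -/
theorem shapeC772_16 : H772.ShapeC772 K := by
  intro 𝔫 _ R hR u _ H z hH hz β l hJ
  obtain ⟨ψ, hW, hne, hZ, hU⟩ := hJ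
  exact isRegParam_of_eig16' (T1.H309.adNormC309 (K := K)) hR.frame hR.ray (l := 1)
    (o := fun _ => u) one_pos hW hne hH hz hU hZ

end Fermat.Agent.LT.T7.H16

end
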