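import Mathlib
import Fermat.Agent.LT.T7.Level2
import Fermat.Agent.LT.T7.H16.RegParamEig

/-!
# Row LT, tower T7, asset (helper16): the operator `[I s I]` is SYMMETRIC on the Iwahori
invariant automorphic functions

OFF-MAIN.  For continuous bounded functions `ψ, χ` on `GL₂(K) ⟨r⟩ \ GL₂(𝔸_K)` which are right
invariant under the Iwahori elements supported at `w`:

* `innerD_J16_left`  : `⟨R(κ) ψ, χ⟩ = ⟨R(s) ψ, χ⟩` for `κ` supported at `w`, `κ ∈ GL₂(𝒪) \ I`;
* `innerD_J16_right` : `⟨ψ, R(κ) χ⟩ = ⟨R(s) ψ, χ⟩` for such `κ`;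
* `cosetOp_symm16`   : `⟨cosetOp Hs ψ, χ⟩ = ⟨ψ, cosetOp Hs χ⟩` for a finite set `Hs` of such
  elements (ANY finite set: no count, no completeness);
* `innerD_translate16` : `⟨R(h) ψ, R(h) χ⟩ = ⟨ψ, χ⟩`.
-/

set_option autoImplicit false

open IsDedekindDomain NumberField MeasureTheory WithZero
open scoped ComplexConjugate

noncomputable section

namespace Fermat.Agent.LT.T7.H16

open Fermat.Agent.LT.H556.A0 Fermat.Agent.LT.T5 Fermat.Agent.LT.H129 Fermat.Agent.LT.T7

attribute [local instance] Fermat.Agent.LT.T5.instMeasurableSpaceG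

variable {K : Type} [Field K] [NumberField K]

variable {μ : Measure (G K)} {F : Set (G K)} {r : G K} {w : HeightOneSpectrum (𝓞 K)}
  {ψ χ : G K → ℂ}

theorem innerD_translate16 (hN : T1.AdNormC K) (hF : IsFrame μ F) (hr : IsRayGen r)
    (hψ : IsAutBdd16 r ψ) (hχ : IsAutBdd16 r χ) (h : G K) :
    innerD μ F (fun x => ψ (x * h)) (fun x => χ (x * h)) = innerD μ F ψ χ :=
  T7.H277.innerD_mul_right277 hN hF hr hψ.cont hχ.cont hψ.bdd hχ.bdd hψ.left_inv hχ.left_inv
    hψ.ray hχ.ray h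

theorem weylG16_mul_self (w : HeightOneSpectrum (𝓞 K)) : weylG16 w * weylG16 w = 1 := by
  refine eq_of_local16 (isLocalAtFin_mul129 (isLocalAtFin_locOf16 w _ _)
    (isLocalAtFin_locOf16 w _ _)) (isLocalAtFin_one129 w) ?_
  rw [finComp_mul16, finComp_one16]
  unfold weylG16
  rw [finComp_locOf16, Matrix.mul_fin_two]
  ext i j
  fin_cases i <;> fin_cases j <;> simp

theorem innerD_J16_left (hN : T1.AdNormC K) (hF : IsFrame μ F) (hr : IsRayGen r)
    (hψ : IsAutBdd16 r ψ) (hχ : IsAutBdd16 r χ)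
    (hIψ : ∀ k : G K, IsLocalAtFin w k → InIwahori w k → ∀ x : G K, ψ (x * k) = ψ x)
    (hIχ : ∀ k : G K, IsLocalAtFin w k → InIwahori w k → ∀ x : G K, χ (x * k) = χ x)
    {κ : G K} (hκ : IsLocalAtFin w κ) (hJ : IsJ16 (vw16 w) (finComp w κ)) :
    innerD μ F (fun x => ψ (x * κ)) χ = innerD μ F (fun x => ψ (x * weylG16 w)) χ := by
  obtain ⟨n, b, hn, hb, e⟩ := bruhat16 hJ
  set kn : G K := locOf16 w n (det_ne_zero16 hn.1) with hkn
  set kb : G K := locOf16 w b (det_ne_zero16 hb.1) with hkb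
  have hknL : IsLocalAtFin w kn := isLocalAtFin_locOf16 w _ _
  have hkbL : IsLocalAtFin w kb := isLocalAtFin_locOf16 w _ _
  have hknI : InIwahori w kn := by
    rw [inIwahori_iff16, hkn, finComp_locOf16]
    exact hn
  have hkbI : InIwahori w kb := by
    rw [inIwahori_iff16, hkb, finComp_locOf16]
    exact hb
  have hκe : κ = kn * weylG16 w * kb := by
    refine eq_of_local16 hκ (isLocalAtFin_mul129 (isLocalAtFin_mul129 hknL
      (isLocalAtFin_locOf16 w _ _)) hkbL) ?_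
    rw [finComp_mul16, finComp_mul16, hkn, hkb, finComp_locOf16, finComp_locOf16]
    unfold weylG16
    rw [finComp_locOf16]
    exact e
  have h1 : (fun x => ψ (x * κ)) = fun x => ψ (x * (kn * weylG16 w)) := by
    funext x
    rw [hκe, ← mul_assoc, hIψ kb hkbL hkbI]
  have h2 := innerD_translate16 hN hF hr (hψ.translate hr (kn * weylG16 w)) hχ kn⁻¹
  have h3 : (fun x => ψ (x * kn⁻¹ * (kn * weylG16 w))) = fun x => ψ (x * weylG16 w) := by
    funext x
    congr 1
    group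
  have h4 : (fun x => χ (x * kn⁻¹)) = χ := by
    funext x
    exact hIχ kn⁻¹ (isLocalAtFin_inv129 hknL) (inIwahori_inv16 w hknI) x
  rw [h1, ← h2]
  simp only [h3, h4]

theorem innerD_J16_right (hN : T1.AdNormC K) (hF : IsFrame μ F) (hr : IsRayGen r)
    (hψ : IsAutBdd16 r ψ) (hχ : IsAutBdd16 r χ)
    (hIψ : ∀ k : G K, IsLocalAtFin w k → InIwahori w k → ∀ x : G K, ψ (x * k) = ψ x)
    (hIχ : ∀ k : G K, IsLocalAtFin w k → InIwahori w k → ∀ x : G K, χ (x * k) = χ x)
    {κ : G K} (hκ : IsLocalAtFin w κ) (hJ : IsJ16 (vw16 w) (finComp w κ)) :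
    innerD μ F ψ (fun x => χ (x * κ)) = innerD μ F (fun x => ψ (x * weylG16 w)) χ := by
  have h1 := innerD_J16_left hN hF hr hχ hψ hIχ hIψ hκ hJ
  have h2 : innerD μ F ψ (fun x => χ (x * κ)) = innerD μ F ψ (fun x => χ (x * weylG16 w)) := by
    rw [← innerD_conj16, h1, innerD_conj16]
  have h3 := innerD_translate16 hN hF hr hψ (hχ.translate hr (weylG16 w)) (weylG16 w)
  have h4 : (fun x => χ (x * weylG16 w * weylG16 w)) = χ := by
    funext x
    rw [mul_assoc, weylG16_mul_self, mul_one]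
  rw [h2, ← h3]
  simp only [h4]

/-- **`[I s I]` is symmetric** (any finite set of elements of `GL₂(𝒪) \ I` supported at `w`). -/
theorem cosetOp_symm16 (hN : T1.AdNormC K) (hF : IsFrame μ F) (hr : IsRayGen r)
    (hψ : IsAutBdd16 r ψ) (hχ : IsAutBdd16 r χ)
    (hIψ : ∀ k : G K, IsLocalAtFin w k → InIwahori w k → ∀ x : G K, ψ (x * k) = ψ x)
    (hIχ : ∀ k : G K, IsLocalAtFin w k → InIwahori w k → ∀ x : G K, χ (x * k) = χ x)
    (Hs : Finset (G K))
    (hHs : ∀ h ∈ Hs, IsLocalAtFin w h ∧ IsJ16 (vw16 w) (finComp w h)) :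
    innerD μ F (cosetOp Hs ψ) χ = innerD μ F ψ (cosetOp Hs χ) := by
  have e1 : innerD μ F (cosetOp Hs ψ) χ = ∑ h ∈ Hs, innerD μ F (fun x => ψ (x * h)) χ :=
    innerD_sum_left16 hF.finite Hs (fun h x => ψ (x * h))
      (fun h _ => ⟨(hψ.translate hr h).cont, (hψ.translate hr h).bdd⟩) hχ.cont hχ.bdd
  have e2 : innerD μ F ψ (cosetOp Hs χ) = ∑ h ∈ Hs, innerD μ F ψ (fun x => χ (x * h)) :=
    innerD_sum_right16 hF.finite Hs (fun h x => χ (x * h))
      (fun h _ => ⟨(hχ.translate hr h).cont, (hχ.translate hr h).bdd⟩) hψ.cont hψ.bdd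
  rw [e1, e2]
  refine Finset.sum_congr rfl fun h hh => ?_
  rw [innerD_J16_left hN hF hr hψ hχ hIψ hIχ (hHs h hh).1 (hHs h hh).2,
    innerD_J16_right hN hF hr hψ hχ hIψ hIχ (hHs h hh).1 (hHs h hh).2]

/-- The elements with component `[[a, 1], [1, 0]]`, `a` integral, lie in `GL₂(𝒪) \ I`. -/
theorem isJ16_weylRep {F' : Type*} [Field F'] {v : Valuation F' ℤᵐ⁰} {a : F'} (ha : v a ≤ 1) :
    IsJ16 v !![a, 1; 1, 0] := by
  refine ⟨⟨fun i j => ?_, ?_⟩, ?_⟩
  · fin_cases i <;> fin_cases j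
    · exact ha
    · show v (1 : F') ≤ 1
      rw [map_one]
    · show v (1 : F') ≤ 1
      rw [map_one]
    · show v (0 : F') ≤ 1
      rw [map_zero]
      exact zero_le_one
  · rw [Matrix.det_fin_two_of]
    simp
  · show v (1 : F') = 1
    exact map_one v

/-- The invariance of a member of `IsIwInv` under the Iwahori elements supported at a place of
the orbit. -/
theorem iwInv_local16 {l : ℕ} {o : ℕ → HeightOneSpectrum (𝓞 K)} (hiw : IsIwInv l o ψ)
    {i : ℕ} (hi : i < l) (hw : w = o i) :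
    ∀ k : G K, IsLocalAtFin w k → InIwahori w k → ∀ x : G K, ψ (x * k) = ψ x := by
  intro k hk hkI x
  refine hiw k hk.1 (fun v hv => hk.2 v ?_) (fun j _ => ?_) x
  · rw [hw]
    exact hv i hi
  · exact inIwahori_all_of_local16 hk hkI (o j)

end Fermat.Agent.LT.T7.H16

end
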