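import Mathlib
import Fermat.Agent.LT.T1.H309.AdNorm
import Fermat.Agent.LT.T5.H415.AutT5
import Fermat.Agent.LT.T7.H561.OpsSpec
import Fermat.Agent.LT.T7.H16.OpsAdj

/-!
# Row LT, tower T7, node T7.L2.2.B4 `OpsC561`: leaf B4.6 `OpsAdjC561`, VERBATIM (helper16)

OFF-MAIN.  Unconditional.

    opsAdjC561_16 : H561.OpsAdjC561 K K'     (`LT/T7/H561/OpsSpec.lean`, sha256 17293f38)

`S_j = cosetOp (Hs j)` is symmetric and `ρ_j = trOp561 (ω j)` is an isometry on the invariant
cusp functions of the base level, for EVERY `j : ℕ` (the orbit is periodic: `orbit_mem16`).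
From `cosetOp_symm16`, `innerD_translate16` (`OpsAdj.lean`) and the closed leaf `T1.AdNormC`.
-/

set_option autoImplicit false

open IsDedekindDomain NumberField MeasureTheory

noncomputable section

namespace Fermat.Agent.LT.T7.H16

open Fermat.Agent.LT.H556 Fermat.Agent.LT.H556.A0 Fermat.Agent.LT.T5 Fermat.Agent.LT.H129
open Fermat.Agent.LT.T7

attribute [local instance] Fermat.Agent.LT.T5.instMeasurableSpaceG

/-- Every place `o j` of the orbit is one of `o 0, …, o (l - 1)`. -/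
theorem orbit_mem16 {K : Type} [Field K] [NumberField K] (s : AdelicAut K) (l : ℕ)
    (k : Subfield K) (hc : IsCyclicOfDegree s l k) (o : ℕ → HeightOneSpectrum (𝓞 K))
    (ho : ∀ j : ℕ, PlaceRel s (o j) (o (j + 1))) (j : ℕ) : ∃ i < l, o j = o i := by
  induction j with
  | zero => exact ⟨0, hc.pos, rfl⟩
  | succ j ih =>
    obtain ⟨i, hi, e⟩ := ih
    have h1 : o (j + 1) = o (i + 1) :=
      LT.H415.finRel_unique415 s.σ (o j) _ _ (ho j) (by rw [e]; exact ho i)
    rcases Nat.lt_or_ge (i + 1) l with h | h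
    · exact ⟨i + 1, h, h1⟩
    · have h2 : i + 1 = l := le_antisymm hi h
      refine ⟨0, hc.pos, ?_⟩
      rw [h1, h2]
      exact T5.H415.orbit_period415 s l k hc o ho

theorem trivAtInf_one16 {K : Type} [Field K] [NumberField K] (w : InfinitePlace K) :
    TrivAtInf w (1 : G K) := by
  rw [trivAtInf_iff129, map_one]

theorem isBad_one16 {K K' : Type} [Field K] [NumberField K] [Field K'] [NumberField K']
    [Algebra K K'] (Dt : L2Data K K') : Dt.IsBad 1 :=
  ⟨fun w => trivAtInf_one16 w, fun v _ => finComp_one16 v⟩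

variable (K K' : Type) [Field K] [NumberField K] [Field K'] [NumberField K'] [Algebra K K']

/-- **Leaf B4.6 `OpsAdjC561` of helper561, VERBATIM.** -/
theorem opsAdjC561_16 : H561.OpsAdjC561 K K' := by
  intro ℓ Φ Dt hs Hs ω hsys j ψ χ hψ hχ
  have hDt := hs.data
  have hcomp := hDt.comp 1 (isBad_one16 Dt)
  have hF : IsFrame Dt.R'.μ Dt.R'.F := hcomp.frame'.frame
  have hr : IsRayGen Dt.R'.r := hcomp.frame'.ray
  have hcyc : IsCyclicOfDegree Dt.s Dt.l Dt.k := hcomp.cyc
  have hN := T1.H309.adNormC309 (K := K')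
  obtain ⟨i, hi, e⟩ := orbit_mem16 Dt.s Dt.l Dt.k hcyc Dt.o hDt.orbit_rel j
  have hi' : i < ℓ := by rw [← hDt.deg]; exact hi
  have hAψ := isAutBdd16_of_cusp hψ.cusp
  have hAχ := isAutBdd16_of_cusp hχ.cusp
  refine ⟨?_, ?_⟩
  · refine cosetOp_symm16 (w := Dt.o j) hN hF hr hAψ hAχ (iwInv_local16 hψ.iw hi' e)
      (iwInv_local16 hχ.iw hi' e) (Hs j) fun h hh => ⟨hsys.Hs_local j h hh, ?_⟩
    obtain ⟨a, ha, hc⟩ := hsys.Hs_comp j h hh
    rw [hc]
    exact isJ16_weylRep ((HeightOneSpectrum.mem_adicCompletionIntegers _ _ _).1 ha)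
  · exact innerD_translate16 hN hF hr hAψ hAχ (ω j)

end Fermat.Agent.LT.T7.H16

end
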