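import Mathlib
import Fermat.Agent.LT.T7.H561.OpsSpec
import Fermat.Agent.LT.T7.H16.IwAdelic

/-!
# Row LT, tower T7, node T7.L2.2.B4 (cut of helper561), leaf B4.8 = `OpsLinkC561` (helper16)

OFF-MAIN.  `opsLinkC561_16 : H561.OpsLinkC561 K K'` VERBATIM against
`Fermat/Agent/LT/T7/H561/OpsSpec.lean` (sha256 17293f38), UNCONDITIONAL.

`!![a,1;1,0] * !![0,1;c,0] = !![c,a;0,1] = !![1,a;0,1] * !![c,0;0,1]` lies in `I diag(c,1) I`,
`(h ω)⁻¹ (h' ω) = ω⁻¹ (h⁻¹ h') ω` and `ω` normalises `I`, `ω² = c` is a scalar uniformiser.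
-/

set_option autoImplicit false

open IsDedekindDomain NumberField WithZero

noncomputable section

namespace Fermat.Agent.LT.T7.H16

open Fermat.Agent.LT.H556 Fermat.Agent.LT.H556.A0 Fermat.Agent.LT.T5 Fermat.Agent.LT.H129
open Fermat.Agent.LT.T7

variable {K : Type} [Field K] [NumberField K]

/-- The upper unipotent matrix with an integral entry lies in the Iwahori subgroup. -/
theorem isIw16_upper {F : Type*} [Field F] {v : Valuation F ℤᵐ⁰} {a : F} (ha : v a ≤ 1) :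
    IsIw16 v !![1, a; 0, 1] := by
  refine ⟨⟨fun i j => ?_, ?_⟩, ?_⟩
  · fin_cases i <;> fin_cases j
    · show v 1 ≤ 1
      rw [map_one]
    · exact ha
    · show v 0 ≤ 1
      rw [map_zero]
      exact zero_le
    · show v 1 ≤ 1
      rw [map_one]
  · rw [Matrix.det_fin_two_of]
    simp
  · show v 0 < 1
    rw [map_zero]
    exact zero_lt_one

theorem link_mul16 {F : Type*} [Field F] (a c : F) :
    (!![a, 1; 1, 0] : Matrix (Fin 2) (Fin 2) F) * !![0, 1; c, 0]
      = !![1, a; 0, 1] * !![c, 0; 0, 1] * 1 := by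
  rw [mul_one, Matrix.mul_fin_two, Matrix.mul_fin_two]
  congr 1
  ring_nf

/-- **The link at one place**: `H ω` is an Iwahori coset system at `w` for an explicit system
`H` and `ω = antidiag(1, c)`. -/
theorem isIwCosetSystem_link16 (w : HeightOneSpectrum (𝓞 K)) (H : Finset (G K)) (ω : G K)
    (hωl : IsLocalAtFin w ω)
    (hωc : ∃ c : w.adicCompletion K, Valued.v c = WithZero.exp (-1 : ℤ) ∧
      finComp w ω = !![0, 1; c, 0])
    (hcard : H.card = Ideal.absNorm w.asIdeal)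
    (hloc : ∀ h ∈ H, IsLocalAtFin w h)
    (hcomp : ∀ h ∈ H, ∃ a : w.adicCompletion K,
      a ∈ w.adicCompletionIntegers K ∧ finComp w h = !![a, 1; 1, 0])
    (hinj : ∀ h ∈ H, ∀ h' ∈ H, h ≠ h' → ¬ InIwahori w (h⁻¹ * h')) :
    IsIwCosetSystem w (H.map (mulRightEmbedding ω)) ∧ IsScalarUniformizerAt w (ω * ω) := by
  obtain ⟨c, hc, hω⟩ := hωc
  have hc' : vw16 w c = exp (-1 : ℤ) := hc
  have hc0 : c ≠ 0 := ne_zero_of_v16 hc'
  refine ⟨⟨?_, ?_, ?_⟩, ?_⟩
  · rw [Finset.card_map]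
    exact hcard
  · intro h hh
    rw [Finset.mem_map] at hh
    obtain ⟨h0, hh0, rfl⟩ := hh
    obtain ⟨a, ha, hcomp0⟩ := hcomp h0 hh0
    have ha' : vw16 w a ≤ 1 := (HeightOneSpectrum.mem_adicCompletionIntegers _ _ _).1 ha
    refine ⟨isLocalAtFin_mul129 (hloc h0 hh0) hωl, ?_⟩
    have hd1 : (!![1, a; 0, 1] : Matrix (Fin 2) (Fin 2) (w.adicCompletion K)).det ≠ 0 := by
      rw [Matrix.det_fin_two_of]
      simp
    have hd2 : (!![c, 0; 0, 1] : Matrix (Fin 2) (Fin 2) (w.adicCompletion K)).det ≠ 0 := by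
      rw [Matrix.det_fin_two_of]
      simpa using hc0
    refine ⟨locOf16 w _ hd1, 1, locOf16 w _ hd2, c, ?_, ?_, hc, finComp_locOf16 w _ hd2, ?_⟩
    · rw [inIwahori_iff16, finComp_locOf16]
      exact isIw16_upper ha'
    · rw [inIwahori_iff16, finComp_one16]
      exact isIw16_one
    · show finComp w (h0 * ω) = _
      rw [finComp_mul16, finComp_mul16, finComp_mul16, finComp_locOf16, finComp_locOf16,
        finComp_one16, hcomp0, hω]
      exact link_mul16 a c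
  · intro h hh h' hh' hne hI
    rw [Finset.mem_map] at hh hh'
    obtain ⟨h0, hh0, rfl⟩ := hh
    obtain ⟨h1, hh1, rfl⟩ := hh'
    have hne' : h0 ≠ h1 := fun e => hne (by rw [e])
    apply hinj h0 hh0 h1 hh1 hne'
    have e : h0⁻¹ * h1 = ω * ((h0 * ω)⁻¹ * (h1 * ω)) * ω⁻¹ := by group
    have hI' : InIwahori w ((h0 * ω)⁻¹ * (h1 * ω)) := hI
    rw [inIwahori_iff16] at hI' ⊢
    rw [e, finComp_mul16, finComp_mul16, finComp_inv16' w ω, hω]
    have hinv : (!![0, 1; c, 0] : Matrix (Fin 2) (Fin 2) (w.adicCompletion K))⁻¹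
        = omegaInvM16 c := by
      apply Matrix.inv_eq_right_inv
      exact omegaM16_mul_inv hc0
    rw [hinv]
    exact isIw16_conj' hc' hI'
  · refine ⟨isLocalAtFin_mul129 hωl hωl, c, hc, ?_⟩
    rw [finComp_mul16, hω]
    exact omegaM16_sq c

variable (K) (K' : Type) [Field K'] [NumberField K'] [Algebra K K']

/-- **LEAF B4.8 = OPS-LINK of the cut of helper561, VERBATIM.** -/
theorem opsLinkC561_16 : H561.OpsLinkC561 K K' := by
  intro ℓ Φ Dt _ Hs ω hsys
  exact isIwCosetSystem_link16 (Dt.o 0) (Hs 0) (ω 0) (hsys.ω_local 0) (hsys.ω_comp 0)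
    (hsys.Hs_card 0) (hsys.Hs_local 0) (hsys.Hs_comp 0) (hsys.Hs_inj 0)

end Fermat.Agent.LT.T7.H16

end
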