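import Mathlib
import Fermat.Agent.LT.T7.H340.IwKit
import Fermat.Agent.LT.T7.H439.OpsClass
import Fermat.Agent.LT.T7.H561.OpsSpec
import Fermat.Agent.LT.T7.H16.OpsLink561

/-!
# Row LT, tower T7 (helper16): the operators `S = ∑_{h ∈ H} R(h)` and `ρ = R(ω)` of an explicit
system at ONE place preserve the invariances

OFF-MAIN.  `w` a finite place, `ω` supported at `w` with component `antidiag(1, c)`, `H` such that
`H ω` is an Iwahori coset system at `w` (`isIwCosetSystem_link16`).  For a function `ψ` which is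
right invariant under the Iwahori elements supported at `w`:

* `sum_left16` : `∑_{h ∈ H} ψ (x k h) = ∑_{h ∈ H} ψ (x h)` for `k ∈ I_w` supported at `w`
  (`R(ω⁻¹) ψ` is Iwahori invariant, `k H ω` is another coset system: kit of helper340);
* `split16` : `k = k_w k'`, `k_w` supported at `w`, `k'` trivial at `w`;
* `cosetOp_inv16`, `trOp_inv16` : `S ψ`, `ρ ψ` are right invariant under every `k` which is
  Iwahori at `w` and whose part away from `w` fixes `ψ`;
* `inLevelGroup_away16`, `iwCond_away16` : the part away from `w` of a member of `U(𝔫)`, resp. of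
  an element of the Iwahori subgroups along an orbit, is again such an element.
-/

set_option autoImplicit false
set_option linter.unusedSectionVars false

open IsDedekindDomain NumberField WithZero

noncomputable section

namespace Fermat.Agent.LT.T7.H16

open Fermat.Agent.LT.H556 Fermat.Agent.LT.H556.A0 Fermat.Agent.LT.T5 Fermat.Agent.LT.H129
open Fermat.Agent.LT.T7 Fermat.Agent.LT.T7.H340

variable {K : Type} [Field K] [NumberField K] {w : HeightOneSpectrum (𝓞 K)}

/-- Conjugation by `ω` preserves the Iwahori elements supported at `w`. -/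
theorem conj_local16 {ω : G K} (hωl : IsLocalAtFin w ω)
    (hωc : ∃ c : w.adicCompletion K, Valued.v c = WithZero.exp (-1 : ℤ) ∧
      finComp w ω = !![0, 1; c, 0]) {u : G K} (hu : IsLocalAtFin w u) (huI : InIwahori w u) :
    (IsLocalAtFin w (ω * u * ω⁻¹) ∧ InIwahori w (ω * u * ω⁻¹)) ∧
      IsLocalAtFin w (ω⁻¹ * u * ω) ∧ InIwahori w (ω⁻¹ * u * ω) := by
  obtain ⟨c, hc, hω⟩ := hωc
  have hc' : vw16 w c = exp (-1 : ℤ) := hc
  have hc0 : c ≠ 0 := ne_zero_of_v16 hc'
  have hinv : (!![0, 1; c, 0] : Matrix (Fin 2) (Fin 2) (w.adicCompletion K))⁻¹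
      = omegaInvM16 c := by
    apply Matrix.inv_eq_right_inv
    exact omegaM16_mul_inv hc0
  rw [inIwahori_iff16] at huI
  refine ⟨⟨isLocalAtFin_mul129 (isLocalAtFin_mul129 hωl hu) (isLocalAtFin_inv129 hωl), ?_⟩,
    isLocalAtFin_mul129 (isLocalAtFin_mul129 (isLocalAtFin_inv129 hωl) hu) hωl, ?_⟩
  · rw [inIwahori_iff16, finComp_mul16, finComp_mul16, finComp_inv16' w ω, hω, hinv]
    exact isIw16_conj' hc' huI
  · rw [inIwahori_iff16, finComp_mul16, finComp_mul16, finComp_inv16' w ω, hω, hinv]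
    exact isIw16_conj hc' huI

/-- `∑_{h ∈ H} ψ (x k h) = ∑_{h ∈ H} ψ (x h)` for `k ∈ I_w` supported at `w`. -/
theorem sum_left16 {H : Finset (G K)} {ω : G K} (hωl : IsLocalAtFin w ω)
    (hωc : ∃ c : w.adicCompletion K, Valued.v c = WithZero.exp (-1 : ℤ) ∧
      finComp w ω = !![0, 1; c, 0])
    (hlink : IsIwCosetSystem w (H.map (mulRightEmbedding ω))) {ψ : G K → ℂ}
    (hψ : ∀ u : G K, IsLocalAtFin w u → InIwahori w u → ∀ g : G K, ψ (g * u) = ψ g)
    {k : G K} (hk : IsLocalAtFin w k) (hkI : InIwahori w k) (x : G K) :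
    ∑ h ∈ H, ψ (x * (k * h)) = ∑ h ∈ H, ψ (x * h) := by
  classical
  set ψ' : G K → ℂ := fun g => ψ (g * ω⁻¹) with hψ'
  have hψ'I : ∀ u : G K, IsLocalAtFin w u → InIwahori w u → ∀ g : G K, ψ' (g * u) = ψ' g := by
    intro u hu huI g
    have hcj := (conj_local16 hωl hωc hu huI).1
    have e : g * u * ω⁻¹ = g * ω⁻¹ * (ω * u * ω⁻¹) := by group
    show ψ (g * u * ω⁻¹) = ψ (g * ω⁻¹)
    rw [e]
    exact hψ _ hcj.1 hcj.2 _
  have e1 : ∀ y : G K, ∑ h ∈ H, ψ (y * h)
      = ∑ h ∈ H.map (mulRightEmbedding ω), ψ' (y * h) := by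
    intro y
    rw [Finset.sum_map]
    refine Finset.sum_congr rfl fun h _ => ?_
    show ψ (y * h) = ψ (y * (h * ω) * ω⁻¹)
    congr 1
    group
  have e2 : ∑ h ∈ H, ψ (x * (k * h)) = ∑ h ∈ H, ψ (x * k * h) :=
    Finset.sum_congr rfl fun h _ => by rw [mul_assoc]
  rw [e2, e1 (x * k), e1 x]
  have himg : ∑ h ∈ H.map (mulRightEmbedding ω), ψ' (x * k * h)
      = ∑ h ∈ (H.map (mulRightEmbedding ω)).image (fun h => k * h), ψ' (x * h) := by
    rw [Finset.sum_image (fun a _ b _ hab => mul_right_injective k hab)]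
    exact Finset.sum_congr rfl fun h _ => by rw [mul_assoc]
  rw [himg]
  exact iwSum_indep340 (isIwCosetSystem_translate340 hlink hk hkI) hlink ψ' hψ'I x

/-- The decomposition `k = k_w k'`: `k_w` supported at `w`, `k'` trivial at `w`. -/
theorem split16 (w : HeightOneSpectrum (𝓞 K)) (k : G K) :
    ∃ kw k' : G K, k = kw * k' ∧ IsLocalAtFin w kw ∧
      finCompHom129 w kw = finCompHom129 w k ∧ finCompHom129 w k' = 1 ∧
      (∀ v : HeightOneSpectrum (𝓞 K), v ≠ w → finCompHom129 v k' = finCompHom129 v k) ∧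
      ∀ u : InfinitePlace K, infCompHom129 u k' = infCompHom129 u k := by
  refine ⟨locFin129 w (finCompHom129 w k), (locFin129 w (finCompHom129 w k))⁻¹ * k, by group,
    isLocalAtFin_locFin129 _ _, finCompHom129_locFin129 _ _, ?_, ?_, ?_⟩
  · rw [map_mul, map_inv, finCompHom129_locFin129, inv_mul_cancel]
  · intro v hv
    rw [map_mul, map_inv, finCompHom129_locFin129_of_ne _ _ hv, inv_one, one_mul]
  · intro u
    rw [map_mul, map_inv, infCompHom129_locFin129, inv_one, one_mul]

theorem inIwahori_congr16 {g h : G K} (e : finCompHom129 w g = finCompHom129 w h) :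
    InIwahori w g ↔ InIwahori w h := by
  rw [inIwahori_iff16, inIwahori_iff16, ← coe_finCompHom129, ← coe_finCompHom129, e]

/-- `S ψ` is right invariant under `k` if `k` is Iwahori at `w` and its part away from `w`
fixes `ψ`. -/
theorem cosetOp_inv16 {H : Finset (G K)} {ω : G K} (hωl : IsLocalAtFin w ω)
    (hωc : ∃ c : w.adicCompletion K, Valued.v c = WithZero.exp (-1 : ℤ) ∧
      finComp w ω = !![0, 1; c, 0])
    (hloc : ∀ h ∈ H, IsLocalAtFin w h)
    (hlink : IsIwCosetSystem w (H.map (mulRightEmbedding ω))) {ψ : G K → ℂ}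
    (hψ : ∀ u : G K, IsLocalAtFin w u → InIwahori w u → ∀ g : G K, ψ (g * u) = ψ g)
    {k : G K} (hkI : InIwahori w k)
    (hk' : ∀ k' : G K, finCompHom129 w k' = 1 →
      (∀ v : HeightOneSpectrum (𝓞 K), v ≠ w → finCompHom129 v k' = finCompHom129 v k) →
      (∀ u : InfinitePlace K, infCompHom129 u k' = infCompHom129 u k) →
      ∀ g : G K, ψ (g * k') = ψ g) (x : G K) :
    cosetOp H ψ (x * k) = cosetOp H ψ x := by
  obtain ⟨kw, k', hkk, hkwl, hkww, hk'w, hk'v, hk'inf⟩ := split16 w k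
  have hkwI : InIwahori w kw := (inIwahori_congr16 hkww).2 hkI
  unfold cosetOp
  have hterm : ∀ h ∈ H, ψ (x * k * h) = ψ (x * (kw * h)) := by
    intro h hh
    have hcomm : k' * h = h * k' := (commute_of_local340 (hloc h hh) hk'w).symm
    have e : x * k * h = x * (kw * h) * k' := by
      rw [hkk, mul_assoc, mul_assoc kw, hcomm]
      group
    rw [e]
    exact hk' k' hk'w hk'v hk'inf _
  rw [Finset.sum_congr rfl hterm]
  exact sum_left16 hωl hωc hlink hψ hkwl hkwI x

/-- `ρ ψ` is right invariant under `k` if `k` is Iwahori at `w` and its part away from `w`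
fixes `ψ`. -/
theorem trOp_inv16 {ω : G K} (hωl : IsLocalAtFin w ω)
    (hωc : ∃ c : w.adicCompletion K, Valued.v c = WithZero.exp (-1 : ℤ) ∧
      finComp w ω = !![0, 1; c, 0]) {ψ : G K → ℂ}
    (hψ : ∀ u : G K, IsLocalAtFin w u → InIwahori w u → ∀ g : G K, ψ (g * u) = ψ g)
    {k : G K} (hkI : InIwahori w k)
    (hk' : ∀ k' : G K, finCompHom129 w k' = 1 →
      (∀ v : HeightOneSpectrum (𝓞 K), v ≠ w → finCompHom129 v k' = finCompHom129 v k) →
      (∀ u : InfinitePlace K, infCompHom129 u k' = infCompHom129 u k) →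
      ∀ g : G K, ψ (g * k') = ψ g) (x : G K) :
    H561.trOp561 ω ψ (x * k) = H561.trOp561 ω ψ x := by
  obtain ⟨kw, k', hkk, hkwl, hkww, hk'w, hk'v, hk'inf⟩ := split16 w k
  have hkwI : InIwahori w kw := (inIwahori_congr16 hkww).2 hkI
  show ψ (x * k * ω) = ψ (x * ω)
  have hcomm : k' * ω = ω * k' := (commute_of_local340 hωl hk'w).symm
  have hcj := (conj_local16 hωl hωc hkwl hkwI).2
  have e : x * k * ω = x * ω * (ω⁻¹ * kw * ω) * k' := by
    rw [hkk, mul_assoc x, mul_assoc kw, hcomm]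
    group
  rw [e, hk' k' hk'w hk'v hk'inf, hψ _ hcj.1 hcj.2]

/-- The part away from `w` of a member of `U(𝔫)` is a member of `U(𝔫)`. -/
theorem inLevelGroup_away16 {𝔫 : Ideal (𝓞 K)} {k k' : G K} (hk : InLevelGroup 𝔫 k)
    (hk'w : finCompHom129 w k' = 1)
    (hk'v : ∀ v : HeightOneSpectrum (𝓞 K), v ≠ w → finCompHom129 v k' = finCompHom129 v k)
    (hk'inf : ∀ u : InfinitePlace K, infCompHom129 u k' = infCompHom129 u k) :
    InLevelGroup 𝔫 k' := by
  refine ⟨fun u => ?_, fun v i j => ?_⟩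
  · rw [trivAtInf_iff129, hk'inf u, ← trivAtInf_iff129]
    exact hk.1 u
  · by_cases hv : v = w
    · subst hv
      have e1 : finComp v k' = 1 := by
        rw [← coe_finCompHom129, hk'w]; rfl
      have e2 : finComp v k'⁻¹ = 1 := by
        rw [← coe_finCompHom129, map_inv, hk'w, inv_one]; rfl
      rw [e1, e2, sub_self]
      exact ⟨H439.zero_mem_ic439 𝔫 v, H439.zero_mem_ic439 𝔫 v⟩
    · have e1 : finComp v k' = finComp v k := by
        rw [← coe_finCompHom129, hk'v v hv]; rfl
      have e2 : finComp v k'⁻¹ = finComp v k⁻¹ := by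
        rw [← coe_finCompHom129, map_inv, hk'v v hv, ← map_inv]; rfl
      rw [e1, e2]
      exact hk.2 v i j

/-- The part away from `w` of an element of the Iwahori subgroups along the orbit fixes a member
of `IsIwInv`. -/
theorem iwCond_away16 {l : ℕ} {o : ℕ → HeightOneSpectrum (𝓞 K)} {ψ : G K → ℂ}
    (hψ : IsIwInv l o ψ) {k k' : G K}
    (hkinf : ∀ u : InfinitePlace K, TrivAtInf u k)
    (hkout : ∀ v : HeightOneSpectrum (𝓞 K), (∀ j < l, v ≠ o j) → TrivAtFin v k)
    (hkI : ∀ j < l, InIwahori (o j) k)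
    (hk'w : finCompHom129 w k' = 1)
    (hk'v : ∀ v : HeightOneSpectrum (𝓞 K), v ≠ w → finCompHom129 v k' = finCompHom129 v k)
    (hk'inf : ∀ u : InfinitePlace K, infCompHom129 u k' = infCompHom129 u k) (g : G K) :
    ψ (g * k') = ψ g := by
  refine hψ k' (fun u => ?_) (fun v hv => ?_) (fun j hj => ?_) g
  · rw [trivAtInf_iff129, hk'inf u, ← trivAtInf_iff129]
    exact hkinf u
  · by_cases hvw : v = w
    · subst hvw
      rw [trivAtFin_iff129]
      exact hk'w
    · rw [trivAtFin_iff129, hk'v v hvw, ← trivAtFin_iff129]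
      exact hkout v hv
  · by_cases hjw : o j = w
    · rw [hjw, inIwahori_iff16, ← coe_finCompHom129, hk'w]
      exact isIw16_one
    · rw [inIwahori_congr16 (hk'v _ hjw)]
      exact hkI j hj

end Fermat.Agent.LT.T7.H16

end
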