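import Mathlib
import Fermat.Agent.LT.T7.H16.OpsEig
import Fermat.Agent.LT.T7.H16.OpsAdj561

/-!
# Row LT, tower T7, node T7.L2.2.B4 `OpsC561`: leaf B4.2 `OpsEigC561`, VERBATIM (helper16)

OFF-MAIN.  Unconditional.

    opsEigC561_16 : H561.OpsEigC561 K K'     (`LT/T7/H561/OpsSpec.lean`, sha256 17293f38)

`S_j = cosetOp (Hs j)` and `ρ_j = trOp561 (ω j)` preserve the classes `IsEigFn … C` of the base
level, for EVERY `j : ℕ`.  The conditions other than the invariance under `U(𝔑₀)` and under the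
Iwahori subgroups: `isPre_translate439` of helper439 (`o j ∣ 𝔑₀`); the two invariances:
`cosetOp_inv16`, `trOp_inv16` (`OpsEig.lean`; the level group at `o j` lies in the Iwahori
subgroup, `inIwahori_of_level439`).
-/

set_option autoImplicit false

open IsDedekindDomain NumberField MeasureTheory

noncomputable section

namespace Fermat.Agent.LT.T7.H16

open Fermat.Agent.LT.H556 Fermat.Agent.LT.H556.A0 Fermat.Agent.LT.T5 Fermat.Agent.LT.H129
open Fermat.Agent.LT.T7

attribute [local instance] Fermat.Agent.LT.T5.instMeasurableSpaceG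

variable (K K' : Type) [Field K] [NumberField K] [Field K'] [NumberField K'] [Algebra K K']

/-- **Leaf B4.2 `OpsEigC561` of helper561, VERBATIM.** -/
theorem opsEigC561_16 : H561.OpsEigC561 K K' := by
  intro ℓ Φ Dt hs Hs ω hsys j ψ C hψ
  have hDt := hs.data
  have hcomp := hDt.comp 1 (isBad_one16 Dt)
  have hr : IsRayGen Dt.R'.r := hcomp.frame'.ray
  have hcyc : IsCyclicOfDegree Dt.s Dt.l Dt.k := hcomp.cyc
  obtain ⟨i, hi, e⟩ := orbit_mem16 Dt.s Dt.l Dt.k hcyc Dt.o hDt.orbit_rel j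
  have hi' : i < ℓ := by rw [← hDt.deg]; exact hi
  have hu : (Dt.o j).asIdeal ∣ Dt.𝔑₀ := (hDt.mem_S' _).1 (hDt.orbit_level j)
  have hpre := H439.isPre_of_eig439 hψ
  have hψI : ∀ k : G K', IsLocalAtFin (Dt.o j) k → InIwahori (Dt.o j) k →
      ∀ x : G K', ψ (x * k) = ψ x := iwInv_local16 hψ.inv.iw hi' e
  have hlink := (isIwCosetSystem_link16 (Dt.o j) (Hs j) (ω j) (hsys.ω_local j)
    (hsys.ω_comp j) (hsys.Hs_card j) (hsys.Hs_local j) (hsys.Hs_comp j) (hsys.Hs_inj j)).1
  have hjI : ∀ k : G K', (∀ j' < ℓ, InIwahori (Dt.o j') k) → InIwahori (Dt.o j) k := by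
    intro k hk
    rw [e]
    exact hk i hi'
  refine ⟨?_, ?_⟩
  · have hpreS : H439.IsPre439 Dt.𝔑₀ Dt.R'.r C (cosetOp (Hs j) ψ) := by
      have e1 : cosetOp (Hs j) ψ = ∑ h ∈ Hs j, fun x => ψ (x * h) := by
        funext x
        show ∑ h ∈ Hs j, ψ (x * h) = (∑ h ∈ Hs j, fun x => ψ (x * h)) x
        rw [Finset.sum_apply]
      rw [e1]
      exact H439.isPre_sum439 _ _ fun h hh =>
        H439.isPre_translate439 hpre hr hu (hsys.Hs_local j h hh)
    refine H439.isEig_of_pre439 hpreS (fun k hk x => ?_) ?_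
    · exact cosetOp_inv16 (hsys.ω_local j) (hsys.ω_comp j) (hsys.Hs_local j) hlink hψI
        (H439.inIwahori_of_level439 hu hk)
        (fun k' h1 h2 h3 g => hψ.inv.cusp.aut.level_inv k'
          (inLevelGroup_away16 hk h1 h2 h3) g) x
    · intro k hkinf hkout hkI x
      exact cosetOp_inv16 (hsys.ω_local j) (hsys.ω_comp j) (hsys.Hs_local j) hlink hψI
        (hjI k hkI)
        (fun k' h1 h2 h3 g => iwCond_away16 hψ.inv.iw hkinf hkout hkI h1 h2 h3 g) x
  · have hpreR : H439.IsPre439 Dt.𝔑₀ Dt.R'.r C (H561.trOp561 (ω j) ψ) :=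
      H439.isPre_translate439 hpre hr hu (hsys.ω_local j)
    refine H439.isEig_of_pre439 hpreR (fun k hk x => ?_) ?_
    · exact trOp_inv16 (hsys.ω_local j) (hsys.ω_comp j) hψI
        (H439.inIwahori_of_level439 hu hk)
        (fun k' h1 h2 h3 g => hψ.inv.cusp.aut.level_inv k'
          (inLevelGroup_away16 hk h1 h2 h3) g) x
    · intro k hkinf hkout hkI x
      exact trOp_inv16 (hsys.ω_local j) (hsys.ω_comp j) hψI (hjI k hkI)
        (fun k' h1 h2 h3 g => iwCond_away16 hψ.inv.iw hkinf hkout hkI h1 h2 h3 g) x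

end Fermat.Agent.LT.T7.H16

end
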