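import Mathlib
import Fermat.Agent.LT.T7.Level2
import Fermat.Agent.LT.T7.H543.HGroup
import Fermat.Agent.LT.T7.H981.FinIndex

/-!
# Row LT, tower T7 (helper16): full systems of representatives of `U(𝔫) g U(𝔫) / U(𝔫)` EXIST

OFF-MAIN.  UNCONDITIONAL, every number field.

    dblSys_exists16 : 𝔫 ≠ ⊥ → (∀ w, TrivAtInf w g) → ∃ H : Finset (G K), IsDblCosetSystem 𝔫 g H

(the statement of the leaf `BadSystemExistsC` of helper963, `T7/H963/Compress.lean`, and the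
existence part of the leaf B4.9 `BadOpC561` of helper561).

Proof.  `a ∈ 𝓞 K`, `a ≠ 0`, with `a g_v`, `a g_v⁻¹` integral at every finite place
(`exists_denom16`: the places where `g` or `g⁻¹` is not integral are finite in number);
`𝔐 = a² 𝔫`: `g⁻¹ U(𝔐) g ⊆ U(𝔫)` (`conj_mem16`: `𝔐 𝒪_v = a² 𝔫 𝒪_v`, `ic_span_mul16`);
`U(𝔐)` has finite index in `GL₂(Ô)` (closed leaf `FinIndexC` of helper981): finitely many
`u_τ ∈ U(𝔫)` with `U(𝔫) = ⋃ u_τ (U(𝔫) ∩ U(𝔐))`, `U(𝔫) g U(𝔫) = ⋃ u_τ g U(𝔫)`; one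
representative in every class modulo `U(𝔫)` (`Quotient.out`).
-/

set_option autoImplicit false
set_option linter.unusedSectionVars false

open IsDedekindDomain NumberField WithZero

noncomputable section

namespace Fermat.Agent.LT.T7.H16

open Fermat.Agent.LT.H556 Fermat.Agent.LT.H556.A0 Fermat.Agent.LT.T7 Fermat.Agent.LT.T7.H543

variable {K : Type} [Field K] [NumberField K]

/-! ## 1. The level group is a group -/

theorem inLevelGroup_one16 (𝔫 : Ideal (𝓞 K)) : InLevelGroup 𝔫 (1 : G K) := by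
  rw [inLevelGroup_iff543]
  refine ⟨fun w => trivAtInf_one543 w, fun v => ?_⟩
  rw [inv_one, finComp_one543, sub_self]
  exact ⟨idM_zero543 𝔫, idM_zero543 𝔫⟩

theorem inLevelGroup_mul16 {𝔫 : Ideal (𝓞 K)} {u u' : G K} (hu : InLevelGroup 𝔫 u)
    (hu' : InLevelGroup 𝔫 u') : InLevelGroup 𝔫 (u * u') := by
  rw [inLevelGroup_iff543] at *
  refine ⟨fun w => trivAtInf_mul543 (hu.1 w) (hu'.1 w), fun v => ⟨?_, ?_⟩⟩
  · rw [finComp_mul543]
    exact idM_mul_sub_one543 (hu.2 v).1 (hu'.2 v).1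
  · rw [mul_inv_rev, finComp_mul543]
    exact idM_mul_sub_one543 (hu'.2 v).2 (hu.2 v).2

theorem inLevelGroup_inv16 {𝔫 : Ideal (𝓞 K)} {u : G K} (hu : InLevelGroup 𝔫 u) :
    InLevelGroup 𝔫 u⁻¹ := by
  rw [inLevelGroup_iff543] at *
  refine ⟨fun w => trivAtInf_inv543 (hu.1 w), fun v => ⟨(hu.2 v).2, ?_⟩⟩
  rw [inv_inv]
  exact (hu.2 v).1

theorem inLevelGroup_int16 {𝔫 : Ideal (𝓞 K)} {u : G K} (hu : InLevelGroup 𝔫 u)
    (v : HeightOneSpectrum (𝓞 K)) : IsIntegralAt v u ∧ IsIntegralAt v u⁻¹ := by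
  rw [inLevelGroup_iff543] at hu
  exact ⟨intM_of_idM543 (hu.2 v).1, intM_of_idM543 (hu.2 v).2⟩

/-! ## 2. `(c 𝔫) 𝒪_v = c (𝔫 𝒪_v)` -/

theorem emb_ne_zero16 (v : HeightOneSpectrum (𝓞 K)) {c : 𝓞 K} (hc : c ≠ 0) :
    emb543 v c ≠ 0 := by
  intro h
  apply hc
  have h1 : algebraMap K (v.adicCompletion K) (algebraMap (𝓞 K) K c) = 0 := h
  have h2 : algebraMap (𝓞 K) K c = 0 :=
    (map_eq_zero_iff _ (algebraMap K (v.adicCompletion K)).injective).1 h1
  exact (map_eq_zero_iff _ (IsFractionRing.injective (𝓞 K) K)).1 h2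

/-- An element of the closure of `c 𝔫` is `c` times an element of the closure of `𝔫`. -/
theorem ic_span_mul16 {𝔫 : Ideal (𝓞 K)} (v : HeightOneSpectrum (𝓞 K)) {c : 𝓞 K} (hc : c ≠ 0)
    {x : v.adicCompletion K} (hx : x ∈ idealClosure (Ideal.span {c} * 𝔫) v) :
    ∃ y ∈ idealClosure 𝔫 v, x = emb543 v c * y := by
  have hc0 := emb_ne_zero16 v hc
  have hvc : Valued.v (emb543 v c) ≠ 0 := (Valuation.ne_zero_iff _).2 hc0
  refine ⟨(emb543 v c)⁻¹ * x, ?_, by rw [mul_inv_cancel_left₀ hc0]⟩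
  rw [mem_idealClosure_iff543] at hx ⊢
  intro z hz
  obtain ⟨n', hn', hlt⟩ := hx (emb543 v c * z) (mul_ne_zero hc0 hz)
  obtain ⟨n, hn, rfl⟩ := Ideal.mem_span_singleton_mul.1 hn'
  refine ⟨n, hn, ?_⟩
  have e : emb543 v (c * n) - x = emb543 v c * (emb543 v n - (emb543 v c)⁻¹ * x) := by
    rw [map_mul, mul_sub, mul_inv_cancel_left₀ hc0]
  rw [e, map_mul, map_mul] at hlt
  exact lt_of_mul_lt_mul_left' hlt

/-! ## 3. Denominators -/

theorem valued_emb16 (v : HeightOneSpectrum (𝓞 K)) (c : 𝓞 K) :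
    Valued.v (emb543 v c) = v.intValuation c := by
  show Valued.v (algebraMap K (v.adicCompletion K) (algebraMap (𝓞 K) K c)) = _
  rw [val_algebraMap543, HeightOneSpectrum.valuation_of_algebraMap]

/-- The powers of an element of the maximal ideal kill the denominator of `x`. -/
theorem exists_pow_int16 (v : HeightOneSpectrum (𝓞 K)) (x : v.adicCompletion K) :
    ∃ n : ℕ, ∀ π : 𝓞 K, π ∈ v.asIdeal → ∀ n' : ℕ, n ≤ n' →
      emb543 v π ^ n' * x ∈ v.adicCompletionIntegers K := by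
  by_cases hx : x = 0
  · exact ⟨0, fun π _ n' _ => by rw [hx, mul_zero]; exact zero_mem _⟩
  · have hvx : Valued.v x ≠ 0 := (Valuation.ne_zero_iff _).2 hx
    refine ⟨(log (Valued.v x)).toNat, fun π hπ n' hn' => ?_⟩
    rw [HeightOneSpectrum.mem_adicCompletionIntegers, map_mul, map_pow]
    have h1 : Valued.v (emb543 v π) ≤ exp (-1 : ℤ) := by
      rw [valued_emb16]
      have h2 : v.intValuation π < 1 := (v.intValuation_lt_one_iff_mem π).2 hπ
      have h3 := WithZero.lt_mul_exp_iff_le (x := v.intValuation π) (y := exp (-1 : ℤ))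
        exp_ne_zero
      rw [← exp_add] at h3
      have h4 : exp ((-1 : ℤ) + 1) = (1 : ℤᵐ⁰) := by simp
      rw [h4] at h3
      exact h3.1 h2
    have h5 : Valued.v (emb543 v π) ^ n' ≤ exp (-1 : ℤ) ^ n' := pow_le_pow_left' h1 n'
    calc Valued.v (emb543 v π) ^ n' * Valued.v x
        ≤ exp (-1 : ℤ) ^ n' * Valued.v x := mul_le_mul_left h5 _
      _ = exp (n' • (-1 : ℤ) + log (Valued.v x)) := by rw [exp_add, exp_nsmul, exp_log hvx]
      _ ≤ exp (0 : ℤ) := by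
          rw [exp_le_exp]
          have h6 := Int.self_le_toNat (log (Valued.v x))
          have h7 : ((log (Valued.v x)).toNat : ℤ) ≤ n' := by exact_mod_cast hn'
          rw [nsmul_eq_mul]
          linarith
      _ = 1 := exp_zero

/-- The denominators of `g` and `g⁻¹` at one place. -/
theorem exists_denom_at16 (v : HeightOneSpectrum (𝓞 K)) (g : G K) :
    ∃ c : 𝓞 K, c ≠ 0 ∧ ∀ i j, emb543 v c * finComp v g i j ∈ v.adicCompletionIntegers K ∧
      emb543 v c * finComp v g⁻¹ i j ∈ v.adicCompletionIntegers K := by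
  obtain ⟨π, hπ, hπ0⟩ := Submodule.exists_mem_ne_zero_of_ne_bot v.ne_bot
  choose f hf using exists_pow_int16 v
  set N : ℕ := ∑ i : Fin 2, ∑ j : Fin 2, (f (finComp v g i j) + f (finComp v g⁻¹ i j)) with hN
  have hle : ∀ i j, f (finComp v g i j) + f (finComp v g⁻¹ i j) ≤ N := by
    intro i j
    have h1 : ∑ j' : Fin 2, (f (finComp v g i j') + f (finComp v g⁻¹ i j')) ≤ N :=
      Finset.single_le_sum (f := fun i' : Fin 2 =>
        ∑ j' : Fin 2, (f (finComp v g i' j') + f (finComp v g⁻¹ i' j')))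
        (fun _ _ => Nat.zero_le _) (Finset.mem_univ i)
    have h2 : f (finComp v g i j) + f (finComp v g⁻¹ i j)
        ≤ ∑ j' : Fin 2, (f (finComp v g i j') + f (finComp v g⁻¹ i j')) :=
      Finset.single_le_sum (f := fun j' : Fin 2 =>
        f (finComp v g i j') + f (finComp v g⁻¹ i j'))
        (fun _ _ => Nat.zero_le _) (Finset.mem_univ j)
    exact h2.trans h1
  refine ⟨π ^ N, pow_ne_zero _ hπ0, fun i j => ?_⟩
  rw [map_pow]
  exact ⟨hf _ π hπ N (by have := hle i j; omega), hf _ π hπ N (by have := hle i j; omega)⟩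

/-- The finite places where `g` or `g⁻¹` is not integral are finite in number. -/
theorem finite_nonint16 (g : G K) :
    {v : HeightOneSpectrum (𝓞 K) | ¬ ((∀ i j, finComp v g i j ∈ v.adicCompletionIntegers K) ∧
      ∀ i j, finComp v g⁻¹ i j ∈ v.adicCompletionIntegers K)}.Finite := by
  have h : ∀ a : Adl K, {v : HeightOneSpectrum (𝓞 K) |
      ¬ a.2 v ∈ v.adicCompletionIntegers K}.Finite := fun a => a.2.2
  have hsub : {v : HeightOneSpectrum (𝓞 K) |
      ¬ ((∀ i j, finComp v g i j ∈ v.adicCompletionIntegers K) ∧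
        ∀ i j, finComp v g⁻¹ i j ∈ v.adicCompletionIntegers K)}
      ⊆ (⋃ i : Fin 2, ⋃ j : Fin 2, {v : HeightOneSpectrum (𝓞 K) |
          ¬ ((g : Matrix (Fin 2) (Fin 2) (Adl K)) i j).2 v ∈ v.adicCompletionIntegers K})
        ∪ (⋃ i : Fin 2, ⋃ j : Fin 2, {v : HeightOneSpectrum (𝓞 K) |
          ¬ (((g⁻¹ : G K) : Matrix (Fin 2) (Fin 2) (Adl K)) i j).2 v
            ∈ v.adicCompletionIntegers K}) := by
    intro v hv
    rw [Set.mem_ofPred_eq, not_and_or] at hv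
    rcases hv with hv | hv
    · push Not at hv
      obtain ⟨i, j, hij⟩ := hv
      exact Or.inl (Set.mem_iUnion.2 ⟨i, Set.mem_iUnion.2 ⟨j, hij⟩⟩)
    · push Not at hv
      obtain ⟨i, j, hij⟩ := hv
      exact Or.inr (Set.mem_iUnion.2 ⟨i, Set.mem_iUnion.2 ⟨j, hij⟩⟩)
  refine Set.Finite.subset ?_ hsub
  refine Set.Finite.union ?_ ?_
  · exact Set.finite_iUnion fun i => Set.finite_iUnion fun j => h _
  · exact Set.finite_iUnion fun i => Set.finite_iUnion fun j => h _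

/-- **A global denominator**: `a ≠ 0` in `𝓞 K` with `a g`, `a g⁻¹` integral at every finite
place. -/
theorem exists_denom16 (g : G K) :
    ∃ a : 𝓞 K, a ≠ 0 ∧ ∀ (v : HeightOneSpectrum (𝓞 K)) (i j : Fin 2),
      emb543 v a * finComp v g i j ∈ v.adicCompletionIntegers K ∧
      emb543 v a * finComp v g⁻¹ i j ∈ v.adicCompletionIntegers K := by
  classical
  choose c hc0 hc using fun v : HeightOneSpectrum (𝓞 K) => exists_denom_at16 v g
  set T : Finset (HeightOneSpectrum (𝓞 K)) := (finite_nonint16 g).toFinset with hT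
  refine ⟨∏ v ∈ T, c v, Finset.prod_ne_zero_iff.2 fun v _ => hc0 v, fun v i j => ?_⟩
  by_cases hv : v ∈ T
  · have e : ∏ v' ∈ T, c v' = (∏ v' ∈ T.erase v, c v') * c v := by
      rw [mul_comm]
      exact (Finset.mul_prod_erase T c hv).symm
    rw [e, map_mul, mul_assoc, mul_assoc]
    exact ⟨mul_mem (emb_mem543 v _) (hc v i j).1, mul_mem (emb_mem543 v _) (hc v i j).2⟩
  · have hv' : (∀ i j, finComp v g i j ∈ v.adicCompletionIntegers K) ∧
        ∀ i j, finComp v g⁻¹ i j ∈ v.adicCompletionIntegers K := by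
      by_contra hcon
      exact hv ((Set.Finite.mem_toFinset _).2 hcon)
    exact ⟨mul_mem (emb_mem543 v _) (hv'.1 i j), mul_mem (emb_mem543 v _) (hv'.2 i j)⟩

/-! ## 4. Conjugation -/

/-- `g⁻¹ U(a² 𝔫) g ⊆ U(𝔫)` for a denominator `a` of `g` and `g⁻¹`. -/
theorem conj_mem16 {𝔫 : Ideal (𝓞 K)} {g : G K} (hg : ∀ w : InfinitePlace K, TrivAtInf w g)
    {a : 𝓞 K} (ha0 : a ≠ 0)
    (ha : ∀ (v : HeightOneSpectrum (𝓞 K)) (i j : Fin 2),
      emb543 v a * finComp v g i j ∈ v.adicCompletionIntegers K ∧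
      emb543 v a * finComp v g⁻¹ i j ∈ v.adicCompletionIntegers K)
    {m : G K} (hm : InLevelGroup (Ideal.span {a * a} * 𝔫) m) :
    InLevelGroup 𝔫 (g⁻¹ * m * g) := by
  have haa : a * a ≠ 0 := mul_ne_zero ha0 ha0
  have key : ∀ (v : HeightOneSpectrum (𝓞 K)) (A : Matrix (Fin 2) (Fin 2) (v.adicCompletion K)),
      IdM543 (Ideal.span {a * a} * 𝔫) v (A - 1) →
      IdM543 𝔫 v (finComp v g⁻¹ * A * finComp v g - 1) := by
    intro v A hA
    choose Y hY hYe using fun i j => ic_span_mul16 v haa (hA i j)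
    have eA : A - 1 = (emb543 v a * emb543 v a) • Matrix.of Y := by
      ext i j
      rw [hYe i j, map_mul, Matrix.smul_apply, Matrix.of_apply, smul_eq_mul]
    have e : finComp v g⁻¹ * A * finComp v g - 1
        = (emb543 v a • finComp v g⁻¹) * Matrix.of Y * (emb543 v a • finComp v g) := by
      have e1 : finComp v g⁻¹ * A * finComp v g - 1
          = finComp v g⁻¹ * (A - 1) * finComp v g := by
        rw [mul_sub, sub_mul, mul_one, finComp_inv_mul543]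
      rw [e1, eA, Matrix.mul_smul, Matrix.smul_mul, Matrix.smul_mul, Matrix.smul_mul,
        Matrix.mul_smul, smul_smul, mul_comm]
    rw [e]
    refine idM_mul_int543 (int_mul_idM543 (fun i j => ?_) (fun i j => hY i j)) (fun i j => ?_)
    · rw [Matrix.smul_apply, smul_eq_mul]
      exact (ha v i j).2
    · rw [Matrix.smul_apply, smul_eq_mul]
      exact (ha v i j).1
  rw [inLevelGroup_iff543] at hm ⊢
  refine ⟨fun w => trivAtInf_mul543 (trivAtInf_mul543 (trivAtInf_inv543 (hg w)) (hm.1 w))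
    (hg w), fun v => ⟨?_, ?_⟩⟩
  · rw [finComp_mul543, finComp_mul543]
    exact key v _ (hm.2 v).1
  · have e : (g⁻¹ * m * g)⁻¹ = g⁻¹ * m⁻¹ * g := by group
    rw [e, finComp_mul543, finComp_mul543]
    exact key v _ (hm.2 v).2

/-! ## 5. The system -/

/-- The equivalence modulo `U(𝔫)` on the right. -/
def lvlSetoid16 (𝔫 : Ideal (𝓞 K)) : Setoid (G K) where
  r x y := InLevelGroup 𝔫 (x⁻¹ * y)
  iseqv :=
    { refl := fun x => by
        rw [inv_mul_cancel]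
        exact inLevelGroup_one16 𝔫
      symm := fun {x y} h => by
        have h1 := inLevelGroup_inv16 h
        rwa [mul_inv_rev, inv_inv] at h1
      trans := fun {x y z} h1 h2 => by
        have h3 := inLevelGroup_mul16 h1 h2
        have e : x⁻¹ * y * (y⁻¹ * z) = x⁻¹ * z := by group
        rwa [e] at h3 }

/-- **Full systems of representatives of `U(𝔫) g U(𝔫) / U(𝔫)` exist**, `g` trivial at
infinity. -/
theorem dblSys_exists16 (𝔫 : Ideal (𝓞 K)) (h𝔫 : 𝔫 ≠ ⊥) (g : G K)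
    (hg : ∀ w : InfinitePlace K, TrivAtInf w g) :
    ∃ H : Finset (G K), IsDblCosetSystem 𝔫 g H := by
  classical
  obtain ⟨a, ha0, ha⟩ := exists_denom16 g
  have haa : a * a ≠ 0 := mul_ne_zero ha0 ha0
  have h𝔐0 : Ideal.span {a * a} * 𝔫 ≠ ⊥ := by
    intro h
    rcases Ideal.mul_eq_bot.1 h with h1 | h1
    · exact haa (Ideal.span_singleton_eq_bot.1 h1)
    · exact h𝔫 h1
  obtain ⟨T, hT⟩ := H981.finIndexC981 K (Ideal.span {a * a} * 𝔫) h𝔐0
  have hex : ∀ τ : G K, ∃ u : G K, InLevelGroup 𝔫 u ∧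
      ((∃ u' : G K, InLevelGroup 𝔫 u' ∧ InLevelGroup (Ideal.span {a * a} * 𝔫) (τ⁻¹ * u')) →
        InLevelGroup (Ideal.span {a * a} * 𝔫) (τ⁻¹ * u)) := by
    intro τ
    by_cases h : ∃ u' : G K, InLevelGroup 𝔫 u' ∧
        InLevelGroup (Ideal.span {a * a} * 𝔫) (τ⁻¹ * u')
    · obtain ⟨u', h1, h2⟩ := h
      exact ⟨u', h1, fun _ => h2⟩
    · exact ⟨1, inLevelGroup_one16 𝔫, fun h' => absurd h' h⟩
  choose ρ hρ1 hρ2 using hex
  have hout : ∀ c : G K,
      InLevelGroup 𝔫 (c⁻¹ * (Quotient.mk (lvlSetoid16 𝔫) c).out) := by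
    intro c
    have h1 : (lvlSetoid16 𝔫).r (Quotient.mk (lvlSetoid16 𝔫) c).out c :=
      Quotient.exact (Quotient.out_eq (Quotient.mk (lvlSetoid16 𝔫) c))
    exact (lvlSetoid16 𝔫).iseqv.symm h1
  refine ⟨T.image (fun τ => (Quotient.mk (lvlSetoid16 𝔫) (ρ τ * g)).out), ?_, ?_, ?_⟩
  · intro h hh
    obtain ⟨τ, _, rfl⟩ := Finset.mem_image.1 hh
    refine ⟨ρ τ, (ρ τ * g)⁻¹ * (Quotient.mk (lvlSetoid16 𝔫) (ρ τ * g)).out, hρ1 τ,
      hout _, ?_⟩
    group
  · intro h hh h' hh' hne hI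
    obtain ⟨τ, _, rfl⟩ := Finset.mem_image.1 hh
    obtain ⟨τ', _, rfl⟩ := Finset.mem_image.1 hh'
    apply hne
    have h1 : Quotient.mk (lvlSetoid16 𝔫) (Quotient.mk (lvlSetoid16 𝔫) (ρ τ * g)).out
        = Quotient.mk (lvlSetoid16 𝔫) (Quotient.mk (lvlSetoid16 𝔫) (ρ τ' * g)).out :=
      Quotient.sound hI
    rw [Quotient.out_eq, Quotient.out_eq] at h1
    rw [h1]
  · intro u hu
    obtain ⟨τ, hτ, hτu⟩ := hT u hu.1 (inLevelGroup_int16 hu)
    have h1 : InLevelGroup (Ideal.span {a * a} * 𝔫) (τ⁻¹ * ρ τ) := hρ2 τ ⟨u, hu, hτu⟩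
    have h2 : InLevelGroup (Ideal.span {a * a} * 𝔫) ((ρ τ)⁻¹ * u) := by
      have h3 := inLevelGroup_mul16 (inLevelGroup_inv16 h1) hτu
      have e : (τ⁻¹ * ρ τ)⁻¹ * (τ⁻¹ * u) = (ρ τ)⁻¹ * u := by group
      rwa [e] at h3
    have h3 : InLevelGroup 𝔫 (g⁻¹ * ((ρ τ)⁻¹ * u) * g) := conj_mem16 hg ha0 ha h2
    refine ⟨(Quotient.mk (lvlSetoid16 𝔫) (ρ τ * g)).out, Finset.mem_image.2 ⟨τ, hτ, rfl⟩, ?_⟩
    have h4 := inLevelGroup_mul16 (inLevelGroup_inv16 (hout (ρ τ * g))) h3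
    have e : ((ρ τ * g)⁻¹ * (Quotient.mk (lvlSetoid16 𝔫) (ρ τ * g)).out)⁻¹
        * (g⁻¹ * ((ρ τ)⁻¹ * u) * g)
        = ((Quotient.mk (lvlSetoid16 𝔫) (ρ τ * g)).out)⁻¹ * (u * g) := by group
    rwa [e] at h4

end Fermat.Agent.LT.T7.H16

end
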