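import Mathlib
import Fermat.Agent.LT.T7.H16.DTest
import Fermat.Agent.LT.H886.DoubleCoset

/-!
# Row LT, tower T7, node `B981.StepTC981` (cut of helper589, `StepTSpec.lean` f2cef127):
# the leaf ST.6 = D-OP (helper16, OFF-MAIN, never land)

    dOpC589_16 (F) : ST589.DOpC589 F                                       (VERBATIM)

`R(dStep589 v H z d f) χ = satakePow d a b · R(f) χ` for `χ` continuous, right invariant under a
level group prime to `v`, with `IsHeckeEigenAt χ v a b`.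

* `integral_mulRight16` : change of variables `y ↦ y c` for the measure of a frame;
* `rconv_sStep16` : `R(sStep589 z φ) χ = b R(φ) χ`;
* `rconv_tStep16` : `R(tStep589 v H z φ) χ = a R(φ) χ`.  TERM BY TERM: for every `h` of the coset
  system `(z⁻¹ h)⁻¹ = h⁻¹ z = u₁ h u₂` with `u₁, u₂ ∈ GL₂(𝒪_v)` (`exists_localMaxCpt_inv886`,
  helper886: ONE double coset), so `∫ φ(y z⁻¹ h) χ(x y) dy = ∫ φ(y) χ(x y u₁ h u₂) dy
  = ∫ φ(y u₁⁻¹) χ(x y h) dy = ∫ φ(y) χ(x y h) dy`; then the eigen-equation of `χ`.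
-/

set_option autoImplicit false
set_option linter.unusedSectionVars false

open IsDedekindDomain NumberField WithZero MeasureTheory AutomorphicForm

noncomputable section

namespace Fermat.Agent.LT.T7.H16

open Fermat.Agent.LT.H556 Fermat.Agent.LT.H556.A0 Fermat.Agent.LT.H129
open Fermat.Agent.LT.T7 Fermat.Agent.LT.T7.ST589 Fermat.Agent.LT.T7.H340

attribute [local instance] Fermat.Agent.LT.T5.instMeasurableSpaceG

variable {F : Type} [Field F] [NumberField F]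

/-! ## 1. Change of variables -/

/-- Change of variables `y ↦ y c` for the measure of a frame. -/
theorem integral_mulRight16 {μ : Measure (G F)} {D : Set (G F)} (hF : T5.IsFrame μ D)
    (c : G F) (f : G F → ℂ) : ∫ y, f (y * c) ∂μ = ∫ y, f y ∂μ := by
  haveI : BorelSpace (G F) := ⟨rfl⟩
  have hm : Measurable (fun x : G F => x * c) :=
    (continuous_id.mul continuous_const).measurable
  have hmap : Measure.map (⇑(Homeomorph.mulRight c).toMeasurableEquiv) μ = μ := by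
    ext A hA
    rw [Measure.map_apply (Homeomorph.mulRight c).toMeasurableEquiv.measurable hA]
    exact hF.right_inv c A hA
  have h := MeasureTheory.integral_map_equiv (μ := μ)
    (Homeomorph.mulRight c).toMeasurableEquiv f
  rw [hmap] at h
  exact h.symm

/-- `∫ φ(y c) χ(x y) dy = ∫ φ(y) χ(x y c⁻¹) dy`. -/
theorem rconv_translate16 {μ : Measure (G F)} {D : Set (G F)} (hF : T5.IsFrame μ D)
    (c : G F) (φ χ : G F → ℂ) (x : G F) :
    ∫ y, φ (y * c) * χ (x * y) ∂μ = ∫ y, φ y * χ (x * y * c⁻¹) ∂μ := by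
  rw [← integral_mulRight16 hF c (fun y => φ y * χ (x * y * c⁻¹))]
  refine integral_congr_ae (Filter.Eventually.of_forall fun y => ?_)
  show φ (y * c) * χ (x * y) = φ (y * c) * χ (x * (y * c) * c⁻¹)
  have : x * (y * c) * c⁻¹ = x * y := by group
  rw [this]

/-- The integrands of `R(φ) χ` are integrable. -/
theorem integrable_rconv16 {μ : Measure (G F)} {D : Set (G F)} (hF : T5.IsFrame μ D)
    {φ χ : G F → ℂ} (hφc : Continuous φ) (hφs : HasCompactSupport φ) (hχ : Continuous χ)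
    {a : G F → G F} (ha : Continuous a) : Integrable (fun y => φ y * χ (a y)) μ := by
  haveI : BorelSpace (G F) := ⟨rfl⟩
  haveI := hF.haar
  exact (hφc.mul (hχ.comp ha)).integrable_of_hasCompactSupport hφs.mul_right

/-! ## 2. The operators of the steps -/

/-- `R(c φ) χ = c R(φ) χ`. -/
theorem rconv_smul16 (μ : Measure (G F)) (c : ℂ) (φ χ : G F → ℂ) (x : G F) :
    T5.Rconv μ (fun g => c * φ g) χ x = c * T5.Rconv μ φ χ x := by
  show ∫ y, c * φ y * χ (x * y) ∂μ = c * ∫ y, φ y * χ (x * y) ∂μ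
  rw [← integral_const_mul]
  refine integral_congr_ae (Filter.Eventually.of_forall fun y => ?_)
  show c * φ y * χ (x * y) = c * (φ y * χ (x * y))
  ring

/-- `R(φ - ψ) χ = R(φ) χ - R(ψ) χ`. -/
theorem rconv_sub16 {μ : Measure (G F)} {D : Set (G F)} (hF : T5.IsFrame μ D)
    {φ ψ χ : G F → ℂ} (hφc : Continuous φ) (hφs : HasCompactSupport φ) (hψc : Continuous ψ)
    (hψs : HasCompactSupport ψ) (hχ : Continuous χ) (x : G F) :
    T5.Rconv μ (fun g => φ g - ψ g) χ x = T5.Rconv μ φ χ x - T5.Rconv μ ψ χ x := by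
  show ∫ y, (φ y - ψ y) * χ (x * y) ∂μ
    = (∫ y, φ y * χ (x * y) ∂μ) - ∫ y, ψ y * χ (x * y) ∂μ
  have h1 := integrable_rconv16 hF hφc hφs hχ (a := fun y => x * y)
    (continuous_const.mul continuous_id)
  have h2 := integrable_rconv16 hF hψc hψs hχ (a := fun y => x * y)
    (continuous_const.mul continuous_id)
  rw [← integral_sub h1 h2]
  refine integral_congr_ae (Filter.Eventually.of_forall fun y => ?_)
  show (φ y - ψ y) * χ (x * y) = φ y * χ (x * y) - ψ y * χ (x * y)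
  ring

/-- `R(sStep589 z φ) χ = b R(φ) χ`. -/
theorem rconv_sStep16 {μ : Measure (G F)} {D : Set (G F)} (hF : T5.IsFrame μ D)
    {v : HeightOneSpectrum (𝓞 F)} {z : G F} (hz : IsScalarUniformizerAt v z)
    {χ : G F → ℂ} {a b : ℂ} (hχ : IsHeckeEigenAt χ v a b) (φ : G F → ℂ) (x : G F) :
    T5.Rconv μ (sStep589 z φ) χ x = b * T5.Rconv μ φ χ x := by
  show ∫ y, φ (y * z⁻¹) * χ (x * y) ∂μ = b * ∫ y, φ y * χ (x * y) ∂μ
  rw [rconv_translate16 hF z⁻¹ φ χ x, ← integral_const_mul]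
  refine integral_congr_ae (Filter.Eventually.of_forall fun y => ?_)
  show φ y * χ (x * y * z⁻¹⁻¹) = b * (φ y * χ (x * y))
  rw [inv_inv, hχ.2 z hz (x * y)]
  ring

/-- TERM BY TERM: `∫ φ(y z⁻¹ h) χ(x y) dy = ∫ φ(y) χ(x y h) dy` for `h` of a coset system. -/
theorem rconv_term16 {μ : Measure (G F)} {D : Set (G F)} (hF : T5.IsFrame μ D)
    {𝔫 𝔫₀ : Ideal (𝓞 F)} {v : HeightOneSpectrum (𝓞 F)} (hv : ¬ v.asIdeal ∣ 𝔫)
    (hv₀ : ¬ v.asIdeal ∣ 𝔫₀) {H : Finset (G F)} {z : G F} (hH : IsHeckeCosetSystem v H)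
    (hz : IsScalarUniformizerAt v z) {φ : G F → ℂ}
    (hφ : ∀ u : G F, InLevelGroup 𝔫 u → ∀ g : G F, φ (g * u) = φ g) {χ : G F → ℂ}
    (hχ : ∀ u : G F, InLevelGroup 𝔫₀ u → ∀ g : G F, χ (g * u) = χ g) (x : G F)
    {h : G F} (hh : h ∈ H) :
    ∫ y, φ (y * z⁻¹ * h) * χ (x * y) ∂μ = ∫ y, φ y * χ (x * y * h) ∂μ := by
  have hcz : ∀ g : G F, g * z = z * g := central_scalar16 hz
  obtain ⟨hl, hi, hd⟩ := hH.2.1 h hh
  obtain ⟨u₁, u₂, hu₁, hu₂, e⟩ := Fermat.Agent.LT.H886.exists_localMaxCpt_inv886 hl hi hd hl hi hd hz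
  have hu₁' : InLevelGroup 𝔫 u₁ := inLevelGroup_of_localMaxCpt129 hv hu₁
  have hu₂' : InLevelGroup 𝔫₀ u₂ := inLevelGroup_of_localMaxCpt129 hv₀ hu₂
  have e' : (z⁻¹ * h)⁻¹ = u₁ * h * u₂ := by
    calc (z⁻¹ * h)⁻¹ = h⁻¹ * z := by rw [mul_inv_rev, inv_inv]
      _ = u₁ * (z⁻¹ * h) * u₂ * z := by rw [e]
      _ = z * (u₁ * (z⁻¹ * h) * u₂) := hcz _
      _ = z * u₁ * (z⁻¹ * h * u₂) := by group
      _ = u₁ * z * (z⁻¹ * h * u₂) := by rw [hcz u₁]
      _ = u₁ * h * u₂ := by group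
  have s1 : ∫ y, φ (y * z⁻¹ * h) * χ (x * y) ∂μ
      = ∫ y, φ y * χ (x * y * (z⁻¹ * h)⁻¹) ∂μ := by
    rw [← rconv_translate16 hF (z⁻¹ * h) φ χ x]
    refine integral_congr_ae (Filter.Eventually.of_forall fun y => ?_)
    show φ (y * z⁻¹ * h) * χ (x * y) = φ (y * (z⁻¹ * h)) * χ (x * y)
    rw [mul_assoc]
  have s2 : ∫ y, φ y * χ (x * y * (z⁻¹ * h)⁻¹) ∂μ
      = ∫ y, (fun y' => φ (y' * u₁⁻¹) * χ (x * y' * h)) (y * u₁) ∂μ := by
    refine integral_congr_ae (Filter.Eventually.of_forall fun y => ?_)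
    show φ y * χ (x * y * (z⁻¹ * h)⁻¹) = φ (y * u₁ * u₁⁻¹) * χ (x * (y * u₁) * h)
    have a1 : x * y * (z⁻¹ * h)⁻¹ = x * (y * u₁) * h * u₂ := by
      rw [e']
      group
    have a2 : y * u₁ * u₁⁻¹ = y := by group
    rw [a1, a2, hχ u₂ hu₂' _]
  have s3 : ∫ y, φ (y * u₁⁻¹) * χ (x * y * h) ∂μ = ∫ y, φ y * χ (x * y * h) ∂μ := by
    refine integral_congr_ae (Filter.Eventually.of_forall fun y => ?_)
    show φ (y * u₁⁻¹) * χ (x * y * h) = φ y * χ (x * y * h)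
    have a3 : φ (y * u₁⁻¹) = φ y := by
      have := hφ u₁ hu₁' (y * u₁⁻¹)
      rw [inv_mul_cancel_right] at this
      exact this.symm
    rw [a3]
  rw [s1, s2, integral_mulRight16 hF u₁ (fun y' => φ (y' * u₁⁻¹) * χ (x * y' * h)), s3]

/-- `√q_v ≠ 0`. -/
theorem sqrt_absNorm_ne_zero16 (v : HeightOneSpectrum (𝓞 F)) :
    ((Real.sqrt (Ideal.absNorm v.asIdeal : ℝ) : ℝ) : ℂ) ≠ 0 := by
  have h0 : Ideal.absNorm v.asIdeal ≠ 0 := by
    rw [ne_eq, Ideal.absNorm_eq_zero_iff]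
    exact v.ne_bot
  have h1 : (0 : ℝ) < (Ideal.absNorm v.asIdeal : ℝ) := by
    exact_mod_cast Nat.pos_of_ne_zero h0
  exact Complex.ofReal_ne_zero.2 (Real.sqrt_pos.2 h1).ne'

/-- `R(tStep589 v H z φ) χ = a R(φ) χ`. -/
theorem rconv_tStep16 {μ : Measure (G F)} {D : Set (G F)} (hF : T5.IsFrame μ D)
    {𝔫 𝔫₀ : Ideal (𝓞 F)} {v : HeightOneSpectrum (𝓞 F)} (hv : ¬ v.asIdeal ∣ 𝔫)
    (hv₀ : ¬ v.asIdeal ∣ 𝔫₀) {H : Finset (G F)} {z : G F} (hH : IsHeckeCosetSystem v H)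
    (hz : IsScalarUniformizerAt v z) {φ : G F → ℂ} (hφc : Continuous φ)
    (hφs : HasCompactSupport φ)
    (hφ : ∀ u : G F, InLevelGroup 𝔫 u → ∀ g : G F, φ (g * u) = φ g) {χ : G F → ℂ} {a b : ℂ}
    (hχc : Continuous χ)
    (hχ : ∀ u : G F, InLevelGroup 𝔫₀ u → ∀ g : G F, χ (g * u) = χ g)
    (hχe : IsHeckeEigenAt χ v a b) (x : G F) :
    T5.Rconv μ (tStep589 v H z φ) χ x = a * T5.Rconv μ φ χ x := by
  set c : ℂ := ((Real.sqrt (Ideal.absNorm v.asIdeal : ℝ) : ℝ) : ℂ) with hc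
  have hc0 : c ≠ 0 := sqrt_absNorm_ne_zero16 v
  show ∫ y, (c⁻¹ * ∑ h ∈ H, φ (y * z⁻¹ * h)) * χ (x * y) ∂μ = a * ∫ y, φ y * χ (x * y) ∂μ
  have i1 : ∀ h ∈ H, Integrable (fun y => φ (y * z⁻¹ * h) * χ (x * y)) μ := by
    intro h _
    exact integrable_rconv16 hF (φ := fun y => φ (y * z⁻¹ * h))
      (hφc.comp ((continuous_id.mul continuous_const).mul continuous_const))
      (hφs.comp_homeomorph ((Homeomorph.mulRight z⁻¹).trans (Homeomorph.mulRight h))) hχc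
      (a := fun y => x * y) (continuous_const.mul continuous_id)
  have i2 : ∀ h ∈ H, Integrable (fun y => φ y * χ (x * y * h)) μ := by
    intro h _
    exact integrable_rconv16 hF hφc hφs hχc (a := fun y => x * y * h)
      ((continuous_const.mul continuous_id).mul continuous_const)
  have e1 : ∫ y, (c⁻¹ * ∑ h ∈ H, φ (y * z⁻¹ * h)) * χ (x * y) ∂μ
      = c⁻¹ * ∑ h ∈ H, ∫ y, φ (y * z⁻¹ * h) * χ (x * y) ∂μ := by
    rw [← integral_finsetSum H i1, ← integral_const_mul]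
    refine integral_congr_ae (Filter.Eventually.of_forall fun y => ?_)
    show (c⁻¹ * ∑ h ∈ H, φ (y * z⁻¹ * h)) * χ (x * y)
      = c⁻¹ * ∑ h ∈ H, φ (y * z⁻¹ * h) * χ (x * y)
    rw [mul_assoc, Finset.sum_mul]
  have e2 : ∑ h ∈ H, ∫ y, φ (y * z⁻¹ * h) * χ (x * y) ∂μ
      = ∑ h ∈ H, ∫ y, φ y * χ (x * y * h) ∂μ :=
    Finset.sum_congr rfl fun h hh => rconv_term16 hF hv hv₀ hH hz hφ hχ x hh
  have e3 : ∑ h ∈ H, ∫ y, φ y * χ (x * y * h) ∂μ
      = c * a * ∫ y, φ y * χ (x * y) ∂μ := by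
    rw [← integral_finsetSum H i2, ← integral_const_mul]
    refine integral_congr_ae (Filter.Eventually.of_forall fun y => ?_)
    show ∑ h ∈ H, φ y * χ (x * y * h) = c * a * (φ y * χ (x * y))
    rw [← Finset.mul_sum, hχe.1 H hH (x * y)]
    ring
  rw [e1, e2, e3]
  field_simp

/-! ## 3. The leaf -/

/-- **LEAF ST.6 = D-OP**, VERBATIM. -/
theorem dOpC589_16 (F : Type) [Field F] [NumberField F] : DOpC589 F := by
  intro R hR 𝔫 𝔫₀ hle v hv H z hH hz f hf hfd χ a b hχc hχinv hχe d x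
  have hF := hR.frame
  have hv₀ : ¬ v.asIdeal ∣ 𝔫₀ := by
    intro h
    apply hv
    rw [Ideal.dvd_iff_le] at h ⊢
    exact le_trans hle h
  have hT : ∀ (φ : G F → ℂ), T5.IsTestFn 𝔫 T5.trivType φ → ∀ x : G F,
      T5.Rconv R.μ (tStep589 v H z φ) χ x = a * T5.Rconv R.μ φ χ x := fun φ hφ x =>
    rconv_tStep16 hF hv hv₀ hH hz hφ.cont hφ.supp hφ.inv.level_right hχc hχinv hχe x
  have key : ∀ d : ℕ,
      (∀ x : G F, T5.Rconv R.μ (dStep589 v H z d f) χ x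
        = satakePow d a b * T5.Rconv R.μ f χ x) ∧
      ∀ x : G F, T5.Rconv R.μ (dStep589 v H z (d + 1) f) χ x
        = satakePow (d + 1) a b * T5.Rconv R.μ f χ x := by
    intro d
    induction d with
    | zero =>
      refine ⟨fun x => ?_, fun x => ?_⟩
      · exact rconv_smul16 R.μ 2 f χ x
      · exact hT f hf x
    | succ d ih =>
      refine ⟨ih.2, fun x => ?_⟩
      have ht := isTestFn_tStep16 hv hH hz (hfd (d + 1))
      have hs := isTestFn_sStep16 hz (hfd d)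
      have e := rconv_sub16 hF ht.cont ht.supp hs.cont hs.supp hχc x
      show T5.Rconv R.μ (fun g => tStep589 v H z (dStep589 v H z (d + 1) f) g
        - sStep589 z (dStep589 v H z d f) g) χ x = _
      rw [e, hT _ (hfd (d + 1)) x, rconv_sStep16 hF hz hχe _ x, ih.2 x, ih.1 x,
        satakePow_add_two]
      ring
  exact (key d).1 x

end Fermat.Agent.LT.T7.H16

end
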