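import Mathlib
import Fermat.Agent.LT.T1.H309.AdNorm
import Fermat.Agent.LT.T7.H140.DownBasisQSpec
import Fermat.Agent.LT.T7.H16.PosDef

/-!
# Row LT, tower T7, node T7.L2Q.3 `SpecDownQC`: the REG-PARAM leaf over `ℚ`, VERBATIM (helper16)

OFF-MAIN.  Unconditional.

* `isRegParam_of_iwInv16` : the statement of `isRegParam_of_eig16'` for ANY `K_∞`-type: a
  continuous bounded function on `GL₂(K) ⟨r⟩ \ GL₂(𝔸_K)`, not identically zero, with
  `T7.IsIwInv l o ψ`, `0 < l`, which is a joint eigenfunction of `iwOp (o 0) H` and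
  `shiftOp z 1`;
* `regParamFnQC16 n : SDQ140.RegParamFnQC n` -- leaf DBQ.6 of the cut of helper140
  (`LT/T7/H140/DownBasisQSpec.lean`, sha256 ccac08d3), both types `n`.
-/

set_option autoImplicit false

open IsDedekindDomain NumberField MeasureTheory

noncomputable section

namespace Fermat.Agent.LT.T7.H16

open Fermat.Agent.LT.H556.A0 Fermat.Agent.LT.T5 Fermat.Agent.LT.T7

attribute [local instance] Fermat.Agent.LT.T5.instMeasurableSpaceG

/-- The regular parameters of a joint eigenfunction, any `K_∞`-type, unconditional. -/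
theorem isRegParam_of_iwInv16 {K : Type} [Field K] [NumberField K] {μ : Measure (G K)}
    {F : Set (G K)} {r : G K} (hF : IsFrame μ F) (hr : IsRayGen r) {l : ℕ}
    {o : ℕ → HeightOneSpectrum (𝓞 K)} (hl : 0 < l) {ψ : G K → ℂ} (hψ : IsAutBdd16 r ψ)
    (hiw : IsIwInv l o ψ) (hne : ∃ x : G K, ψ x ≠ 0) {H : Finset (G K)}
    (hH : IsIwCosetSystem (o 0) H) {z : G K} (hz : IsScalarUniformizerAt (o 0) z) {b lam : ℂ}
    (hU : ∀ x : G K, iwOp (o 0) H ψ x = lam * ψ x)
    (hZ : ∀ x : G K, shiftOp z 1 ψ x = b * ψ x) :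
    IsRegParam (Real.sqrt (Ideal.absNorm (o 0).asIdeal : ℝ)) b lam := by
  have hN := T1.H309.adNormC309 (K := K)
  refine isRegParam_of_eig_core16 hN hF hr hψ ?_ (innerD_self_ne_zero16 hN hF hr hψ hne)
    hH hz hU hZ
  intro k hk hkI x
  refine hiw k hk.1 (fun v hv => hk.2 v (hv 0 hl)) (fun j _ => ?_) x
  exact inIwahori_all_of_local16 hk hkI (o j)

/-- **Leaf DBQ.6 `RegParamFnQC` of helper140, VERBATIM** (both types). -/
theorem regParamFnQC16 (n : L2Q.QWt) : SDQ140.RegParamFnQC n := by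
  intro μ F r 𝔫 u H z _ _ hF hr _ hH hz ψ b l hW hne hZ hU
  refine isRegParam_of_iwInv16 hF hr (l := 1) (o := fun _ => u) one_pos
    (isAutBdd16_of_cusp hW.cusp) hW.iw hne hH hz (fun x => ?_) (fun x => ?_)
  · have := congrFun hU x
    simpa using this
  · have := congrFun hZ x
    simpa using this

end Fermat.Agent.LT.T7.H16

end
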